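import Fermat.Agent.TW.GWB.CycloPowUnram
import Fermat.Agent.CFT.Global.RecipFieldLocal
import Fermat.Agent.S55.LocalTower
import Fermat.Agent.S55.LCBridgeGlobal

/-!
# PROGRAM G (S56), block GW-bridge, node ARITH: local degrees grow `p`-adically along the levels
of `globalLevel S`

For a finite set `S` of primes containing the odd prime `p`, a prime `q` and a level `N₀` of
`globalLevel S` there is a smaller level `N'` with

  `p * [G_{ℚ_q} : r⁻¹ N₀] ∣ [G_{ℚ_q} : r⁻¹ N']`,  `r = primeLocalToGlobal q`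

(field form: `F₀/ℚ` finite Galois unramified outside `S` ⇒ `F' = ` a Galois closure of
`F₀(ζ_{p^m})`, `m ≫ 0`, has `p · [F₀ℚ_q : ℚ_q] ∣ [F'ℚ_q : ℚ_q]`).  This is the arithmetic input of
the effaceability of torsion classes in `H²` of the local groups (node E4 of (B2)).

* `le_of_pow_dvd_pow_sub_one` : lifting the exponent, `p ^ m ∣ q ^ k - 1 ⇒ m ≤ c + v_p(k)`;
* `exists_dvd_finrank_of_primitiveRoot` (`q ≠ p`): Frobenius on `ζ_{p^m}`;
* `irreducible_cyclotomic_prime_pow_padic`, `pow_dvd_finrank_of_primitiveRoot_padic` (`q = p`):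
  `Φ_{p^{n+1}}` is irreducible over `ℚ_p` (Eisenstein);
* `exists_forall_pow_dvd_finrank` : the two cases together;
* `exists_level_mul_index_dvd` : the statement above.
-/

set_option autoImplicit false
set_option linter.style.haveILetI false

open Polynomial
open Fermat.Agent.CFT Fermat.Agent.S55 ExtCitation

namespace Fermat.Agent.TW.GWB

local notation "Qb" => AlgebraicClosure ℚ
local notation "GQ" => (AlgebraicClosure ℚ ≃ₐ[ℚ] AlgebraicClosure ℚ)

/-! ### Arithmetic -/

/-- Lifting the exponent: `p ^ m ∣ q ^ k - 1` forces `m ≤ v_p(q^(p-1) - 1) + v_p(k)`. -/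
theorem le_of_pow_dvd_pow_sub_one (p q : ℕ) [hp : Fact p.Prime] (hp1 : Odd p) (hq : q.Prime)
    (hqp : q ≠ p) {m k : ℕ} (hk : k ≠ 0) (h : p ^ m ∣ q ^ k - 1) :
    m ≤ padicValNat p (q ^ (p - 1) - 1) + padicValNat p k := by
  have hp' := hp.out
  have hcop : Nat.Coprime q p := (Nat.coprime_primes hq hp').2 hqp
  set x := q ^ (p - 1) with hx
  have hx1 : 1 < x := Nat.one_lt_pow (Nat.sub_ne_zero_of_lt hp'.one_lt) hq.one_lt
  have hdx : p ∣ x - 1 := by
    have h1 : q ^ Nat.totient p ≡ 1 [MOD p] := Nat.ModEq.pow_totient hcop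
    rw [Nat.totient_prime hp'] at h1
    exact (Nat.modEq_iff_dvd' hx1.le).1 h1.symm
  have hnx : ¬ p ∣ x := by
    intro hd
    have := hp'.dvd_of_dvd_pow hd
    exact hqp ((Nat.prime_dvd_prime_iff_eq hp' hq).1 this).symm
  have hlte := padicValNat.pow_sub_pow hp1 hx1 hdx hnx hk
  rw [one_pow] at hlte
  have hdvd : q ^ k - 1 ∣ x ^ k - 1 := by
    have : x ^ k = (q ^ k) ^ (p - 1) := by rw [hx, ← pow_mul, ← pow_mul, mul_comm]
    rw [this]
    simpa only [one_pow] using Nat.sub_dvd_pow_sub_pow (q ^ k) 1 (p - 1)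
  have hne : x ^ k - 1 ≠ 0 := Nat.sub_ne_zero_of_lt (Nat.one_lt_pow hk hx1)
  have := (padicValNat_dvd_iff_le hne).1 (h.trans hdvd)
  omega

/-! ### `q ≠ p`: Frobenius -/

/-- A finite Galois extension of `ℚ_q` containing a primitive `p^m`-th root of unity (`p ≠ q`)
has degree divisible by some `k ≠ 0` with `q ^ k ≡ 1 mod p ^ m`. -/
theorem exists_dvd_finrank_of_primitiveRoot {q : ℕ} [hq : Fact q.Prime] (p : ℕ)
    [hp : Fact p.Prime] (hqp : q ≠ p) (M : Type) [Field M] [Algebra ℚ_[q] M]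
    [FiniteDimensional ℚ_[q] M] [IsGalois ℚ_[q] M] {m : ℕ} {z : M}
    (hz : IsPrimitiveRoot z (p ^ m)) :
    ∃ k : ℕ, k ≠ 0 ∧ k ∣ Module.finrank ℚ_[q] M ∧ p ^ m ∣ q ^ k - 1 := by
  obtain ⟨φ, hφ⟩ := RecipField.exists_aut_pow_rootsOfUnity (q := q) M
  have hcop : Nat.Coprime q (p ^ m) :=
    Nat.Coprime.pow_right m ((Nat.coprime_primes hq.out hp.out).2 hqp)
  have hpow : ∀ j : ℕ, (φ ^ j) z = z ^ (q ^ j) := by
    intro j
    induction j with
    | zero => simp
    | succ j ih =>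
      rw [pow_succ', AlgEquiv.mul_apply, ih, map_pow, hφ (p ^ m) hcop z hz.pow_eq_one, ← pow_mul,
        ← pow_succ']
  refine ⟨orderOf φ, (orderOf_pos φ).ne', ?_, ?_⟩
  · rw [← IsGalois.card_aut_eq_finrank]
    exact orderOf_dvd_natCard φ
  · have h1 := hpow (orderOf φ)
    rw [pow_orderOf_eq_one, AlgEquiv.one_apply] at h1
    have hq1 : 1 ≤ q ^ orderOf φ := Nat.one_le_pow _ _ hq.out.pos
    have hz0 : z ≠ 0 := hz.ne_zero (pow_pos hp.out.pos m).ne'
    have h2 : z ^ (q ^ orderOf φ - 1) = 1 := by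
      have h3 : z * z ^ (q ^ orderOf φ - 1) = z * 1 := by
        rw [← pow_succ', Nat.sub_add_cancel hq1, mul_one]
        exact h1.symm
      exact mul_left_cancel₀ hz0 h3
    exact hz.dvd_of_pow_eq_one _ h2

/-! ### `q = p`: Eisenstein -/

/-- `Φ_{p^{n+1}}` is irreducible over `ℤ_p`. -/
theorem irreducible_cyclotomic_prime_pow_padicInt (p : ℕ) [hp : Fact p.Prime] (n : ℕ) :
    Irreducible (cyclotomic (p ^ (n + 1)) ℤ_[p]) := by
  have hp' := hp.out
  set f : ℤ[X] := (cyclotomic (p ^ (n + 1)) ℤ).comp (X + 1) with hf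
  have hE := cyclotomic_prime_pow_comp_X_add_one_isEisensteinAt p n
  have hfm : f.Monic := by
    rw [hf, show (X + 1 : ℤ[X]) = X + C 1 by simp]
    refine (cyclotomic.monic _ ℤ).comp (monic_X_add_C 1) fun h => ?_
    rw [natDegree_X_add_C] at h
    exact one_ne_zero h
  set φ : ℤ →+* ℤ_[p] := Int.castRingHom ℤ_[p] with hφ
  set g : ℤ_[p][X] := f.map φ with hg
  have hgm : g.Monic := hfm.map φ
  have hdeg : g.natDegree = f.natDegree := hfm.natDegree_map φ
  have hmax : Ideal.span {(p : ℤ_[p])} ≠ ⊤ := by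
    rw [← PadicInt.maximalIdeal_eq_span_p]
    exact Ideal.IsPrime.ne_top inferInstance
  have hgE : g.IsEisensteinAt (Ideal.span {(p : ℤ_[p])}) := by
    refine hgm.isEisensteinAt_of_mem_of_notMem hmax ?_ ?_
    · intro i hi
      rw [hdeg] at hi
      have := hE.mem hi
      rw [Ideal.mem_span_singleton] at this
      obtain ⟨c, hc⟩ := this
      rw [hg, coeff_map, hc, Ideal.mem_span_singleton]
      exact ⟨φ c, by rw [map_mul]; simp [hφ]⟩
    · intro hmem
      apply hE.notMem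
      rw [hg, coeff_map, Ideal.span_singleton_pow, ← PadicInt.norm_le_pow_iff_mem_span_pow] at hmem
      rw [Ideal.span_singleton_pow, Ideal.mem_span_singleton]
      have := (PadicInt.norm_int_le_pow_iff_dvd (p := p) (k := f.coeff 0) (n := 2)).1 (by
        simpa [hφ] using hmem)
      exact_mod_cast this
  have hprime : (Ideal.span {(p : ℤ_[p])}).IsPrime := by
    rw [← PadicInt.maximalIdeal_eq_span_p]
    infer_instance
  have hdpos : 0 < g.natDegree := by
    rw [hdeg, hf, natDegree_comp, show (X + 1 : ℤ[X]) = X + C 1 by simp, natDegree_X_add_C, mul_one,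
      natDegree_cyclotomic]
    exact Nat.totient_pos.2 (pow_pos hp'.pos _)
  have hgirr : Irreducible g := hgE.irreducible hprime hgm.isPrimitive hdpos
  have hgc : g = (cyclotomic (p ^ (n + 1)) ℤ_[p]).comp (X + C 1) := by
    rw [hg, hf, map_comp, map_cyclotomic]
    simp
  have hge : g = algEquivAevalXAddC (1 : ℤ_[p]) (cyclotomic (p ^ (n + 1)) ℤ_[p]) := by
    rw [hgc, algEquivAevalXAddC_apply, aeval_def, algebraMap_eq]
    rfl
  rw [hge] at hgirr
  exact (MulEquiv.irreducible_iff (algEquivAevalXAddC (1 : ℤ_[p])).toMulEquiv).1 hgirr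

/-- `Φ_{p^{n+1}}` is irreducible over `ℚ_p`. -/
theorem irreducible_cyclotomic_prime_pow_padic (p : ℕ) [hp : Fact p.Prime] (n : ℕ) :
    Irreducible (cyclotomic (p ^ (n + 1)) ℚ_[p]) := by
  have h := irreducible_cyclotomic_prime_pow_padicInt p n
  have hm : (cyclotomic (p ^ (n + 1)) ℤ_[p]).Monic := cyclotomic.monic _ _
  have := (hm.irreducible_iff_irreducible_map_fraction_map (K := ℚ_[p])).1 h
  rwa [map_cyclotomic] at this

/-- A finite extension of `ℚ_p` containing a primitive `p^{n+1}`-th root of unity has degree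
divisible by `p ^ n`. -/
theorem pow_dvd_finrank_of_primitiveRoot_padic (p : ℕ) [hp : Fact p.Prime] (n : ℕ)
    (M : Type*) [Field M] [Algebra ℚ_[p] M] [FiniteDimensional ℚ_[p] M] {z : M}
    (hz : IsPrimitiveRoot z (p ^ (n + 1))) : p ^ n ∣ Module.finrank ℚ_[p] M := by
  have hirr := irreducible_cyclotomic_prime_pow_padic p n
  have hpos : 0 < p ^ (n + 1) := pow_pos hp.out.pos _
  have : NeZero (p ^ (n + 1)) := ⟨hpos.ne'⟩
  have hmin := hz.minpoly_eq_cyclotomic_of_irreducible hirr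
  have hdvd := minpoly.degree_dvd (K := ℚ_[p]) (L := M) (x := z)
    (Algebra.IsIntegral.isIntegral z)
  rw [← hmin, natDegree_cyclotomic, Nat.totient_prime_pow_succ hp.out] at hdvd
  exact (Dvd.intro _ rfl).trans hdvd

/-! ### Both cases -/

/-- For an odd prime `p`, a prime `q` and `n` there is `m` such that every finite Galois extension
of `ℚ_q` containing a primitive `p^m`-th root of unity has degree divisible by `p ^ n`. -/
theorem exists_forall_pow_dvd_finrank (q : ℕ) [hq : Fact q.Prime] (p : ℕ) [hp : Fact p.Prime]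
    (hp2 : p ≠ 2) (n : ℕ) :
    ∃ m : ℕ, ∀ (M : Type) [Field M] [Algebra ℚ_[q] M] [FiniteDimensional ℚ_[q] M]
      [IsGalois ℚ_[q] M] (z : M), IsPrimitiveRoot z (p ^ m) → p ^ n ∣ Module.finrank ℚ_[q] M := by
  by_cases hqp : q = p
  · subst hqp
    exact ⟨n + 1, fun M _ _ _ _ z hz => pow_dvd_finrank_of_primitiveRoot_padic q n M hz⟩
  · have hp1 : Odd p := hp.out.odd_of_ne_two hp2
    refine ⟨padicValNat p (q ^ (p - 1) - 1) + n, fun M _ _ _ _ z hz => ?_⟩
    obtain ⟨k, hk0, hkd, hk⟩ := exists_dvd_finrank_of_primitiveRoot p hqp M hz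
    have hle := le_of_pow_dvd_pow_sub_one p q hp1 hq.out hqp hk0 hk
    have hn : n ≤ padicValNat p k := by omega
    exact ((padicValNat_dvd_iff_le hk0).2 hn).trans hkd

/-! ### The statement on levels -/

/-- **Node ARITH.**  Below every level `N₀` of `globalLevel S` (`p ∈ S` odd) there is a level `N'`
whose local index at `q` is divisible by `p` times the local index of `N₀`. -/
theorem exists_level_mul_index_dvd (S : Finset Nat.Primes) (p : ℕ) [hp : Fact p.Prime]
    (hp2 : p ≠ 2) (hpS : pPrime p ∈ S) (q : Nat.Primes) (N₀ : Subgroup GQ)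
    (hN₀ : (globalLevel S).IsLevel N₀) :
    ∃ N', (globalLevel S).IsLevel N' ∧ N' ≤ N₀ ∧
      p * (N₀.comap (primeLocalToGlobal q)).index ∣ (N'.comap (primeLocalToGlobal q)).index := by
  haveI : Fact (q : ℕ).Prime := ⟨q.2⟩
  have hp' := hp.out
  obtain ⟨F₀, hgal₀, hF₀, rfl⟩ := hN₀
  haveI : FiniteDimensional ℚ F₀ := hF₀.1
  haveI := finiteDimensional_localField (q : ℕ) F₀
  haveI : IsGalois ℚ_[(q : ℕ)] (PadicAlgCl (q : ℕ)) := inferInstance
  -- the local index of `N₀`
  set d₀ := (F₀.fixingSubgroup.comap (primeLocalToGlobal q)).index with hd₀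
  have hd₀' : d₀ = Module.finrank ℚ_[(q : ℕ)] (localField (q : ℕ) F₀) := by
    rw [IntermediateField.finrank_eq_fixingSubgroup_index, fixingSubgroup_localField]
    rfl
  have hd₀pos : d₀ ≠ 0 := by
    rw [hd₀']
    exact Module.finrank_pos.ne'
  obtain ⟨a, u, hu, hau⟩ := Nat.exists_eq_pow_mul_and_not_dvd hd₀pos p hp'.ne_one
  obtain ⟨m, hm⟩ := exists_forall_pow_dvd_finrank (q : ℕ) p hp2 (a + 1)
  -- the cyclotomic field
  haveI : NeZero (p ^ m) := ⟨(pow_pos hp'.pos m).ne'⟩
  obtain ⟨ζ, hζ⟩ : ∃ ζ : Qb, IsPrimitiveRoot ζ (p ^ m) :=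
    HasEnoughRootsOfUnity.exists_primitiveRoot Qb (p ^ m)
  have hZ : (IntermediateField.adjoin ℚ {ζ}).IsUnramifiedOutside S :=
    (isUnramifiedOutside_adjoin_of_pow_prime_pow_eq_one p m hζ.pow_eq_one).mono
      (Finset.singleton_subset_iff.2 hpS)
  obtain ⟨E, hF₀E, hZE, hE, hgalE⟩ := exists_isGalois_isUnramifiedOutside_ge hF₀ hZ
  haveI : FiniteDimensional ℚ E := hE.1
  haveI := finiteDimensional_localField (q : ℕ) E
  haveI := isGalois_localField (q : ℕ) E hgalE
  refine ⟨E.fixingSubgroup, ⟨E, hgalE, hE, rfl⟩,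
    IntermediateField.fixingSubgroup_antitone hF₀E, ?_⟩
  set d' := (E.fixingSubgroup.comap (primeLocalToGlobal q)).index with hd'
  have hd'' : d' = Module.finrank ℚ_[(q : ℕ)] (localField (q : ℕ) E) := by
    rw [IntermediateField.finrank_eq_fixingSubgroup_index, fixingSubgroup_localField]
    rfl
  -- `d₀ ∣ d'`
  have h1 : d₀ ∣ d' :=
    Subgroup.index_dvd_of_le
      (Subgroup.comap_mono (IntermediateField.fixingSubgroup_antitone hF₀E))
  -- `p ^ (a + 1) ∣ d'`
  have h2 : p ^ (a + 1) ∣ d' := by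
    rw [hd'']
    have hζE : padicEmbedding (q : ℕ) ζ ∈ localField (q : ℕ) E :=
      padicEmbedding_mem_localField (q : ℕ)
        (hZE (IntermediateField.mem_adjoin_simple_self ℚ ζ))
    have hprim : IsPrimitiveRoot (padicEmbedding (q : ℕ) ζ) (p ^ m) :=
      hζ.map_of_injective (padicEmbedding (q : ℕ)).toRingHom.injective
    have hprim' : IsPrimitiveRoot
        (⟨padicEmbedding (q : ℕ) ζ, hζE⟩ : localField (q : ℕ) E) (p ^ m) :=
      IsPrimitiveRoot.of_map_of_injective (f := (localField (q : ℕ) E).val)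
        (by simpa using hprim) (localField (q : ℕ) E).val.toRingHom.injective
    exact hm (localField (q : ℕ) E) _ hprim'
  -- arithmetic
  have hu' : u ∣ d' := (Dvd.intro_left _ hau.symm).trans h1
  have hcop : Nat.Coprime (p ^ (a + 1)) u :=
    Nat.Coprime.pow_left _ ((Nat.Prime.coprime_iff_not_dvd hp').2 hu)
  have h3 : p ^ (a + 1) * u ∣ d' := hcop.mul_dvd_of_dvd_of_dvd h2 hu'
  have h4 : p * d₀ = p ^ (a + 1) * u := by rw [hau, pow_succ]; ring
  rw [h4]
  exact h3

end Fermat.Agent.TW.GWB
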