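import Mathlib
import Fermat.Agent.CFT.PT.Middle1Ident
import Fermat.Agent.CFT.PT.Loc1Ident
import Fermat.Agent.CFT.PT.ShaIdent

/-!
# PROGRAM G (S56), block GW-bridge: level cohomology of a `k`-representation and the cohomology
of the LC complex of its underlying `ℤ`-representation

For `A : Rep k G` smooth for a level structure `L`:

* `cxH1Equiv A hA : LC.H1 L A ≃+ (LC.cx _).H 1` and `cxH2Equiv A hA : LC.H2 L A ≃+ (LC.cx _).H 2`,
  where the LC complex is the one of `repZ A` (`repZH1Equiv` followed by the inverse of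
  `LC.h1Equiv`);
* `resH_cxH1Equiv`, `resH_cxH2Equiv`: they commute with the restriction maps (`S55.lcResH1`,
  `S55.lcResH2` on the left, `LC.resH` on the right).
-/

set_option autoImplicit false
set_option linter.unusedSectionVars false

open CategoryTheory

noncomputable section

namespace Fermat.Agent.TW.GWB

open Fermat.Agent.CFT Fermat.Agent.CFT.PT Fermat.Agent.S55

variable {k G H : Type} [CommRing k] [Group G] [Group H] {f : H →* G}
  {L : LevelStructure G} {LH : LevelStructure H} (A : Rep k G)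

/-- `LC.H1 L A ≃+ H¹` of the LC complex of `repZ A`. -/
def cxH1Equiv (hA : IsSmooth L A) :
    LC.H1 L A ≃+ (LC.cx ((isSmooth_repZ_iff L A).2 hA)).H 1 :=
  (repZH1Equiv L A).trans
    (addEquivOfIntLinearEquiv (LC.h1Equiv ((isSmooth_repZ_iff L A).2 hA)).symm)

/-- `LC.H2 L A ≃+ H²` of the LC complex of `repZ A`. -/
def cxH2Equiv (hA : IsSmooth L A) :
    LC.H2 L A ≃+ (LC.cx ((isSmooth_repZ_iff L A).2 hA)).H 2 :=
  (repZH2Equiv L A).trans
    (addEquivOfIntLinearEquiv (LC.h2Equiv ((isSmooth_repZ_iff L A).2 hA)).symm)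

theorem cxH1Equiv_apply (hA : IsSmooth L A) (x : LC.H1 L A) :
    cxH1Equiv A hA x =
      (LC.h1Equiv ((isSmooth_repZ_iff L A).2 hA)).symm (repZH1Equiv L A x) := rfl

theorem cxH2Equiv_apply (hA : IsSmooth L A) (x : LC.H2 L A) :
    cxH2Equiv A hA x =
      (LC.h2Equiv ((isSmooth_repZ_iff L A).2 hA)).symm (repZH2Equiv L A x) := rfl

/-- `cxH1Equiv` commutes with restriction. -/
theorem resH_cxH1Equiv (hf : LH.Compat L f) (hA : IsSmooth L A) (x : LC.H1 L A) :
    LC.resH hf ((isSmooth_repZ_iff L A).2 hA) 1 (cxH1Equiv A hA x) =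
      cxH1Equiv (Rep.res f A) (hA.res hf) (lcResH1 A hf x) := by
  rw [cxH1Equiv_apply, cxH1Equiv_apply, ← lcResH1_repZ A hf x,
    lcResH1_eq_resLC1 (repZ A) hf ((isSmooth_repZ_iff L A).2 hA)]
  simp only [LC.resLC1, LinearMap.comp_apply, LinearEquiv.coe_coe]
  exact (LinearEquiv.symm_apply_apply _ _).symm

/-- `cxH2Equiv` commutes with restriction. -/
theorem resH_cxH2Equiv (hf : LH.Compat L f) (hA : IsSmooth L A) (x : LC.H2 L A) :
    LC.resH hf ((isSmooth_repZ_iff L A).2 hA) 2 (cxH2Equiv A hA x) =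
      cxH2Equiv (Rep.res f A) (hA.res hf) (lcResH2 A hf x) := by
  rw [cxH2Equiv_apply, cxH2Equiv_apply, ← lcResH2_repZ A hf x,
    lcResH2_eq_resLC2 (repZ A) hf hf ((isSmooth_repZ_iff L A).2 hA)]
  simp only [LC.resLC2, LinearMap.comp_apply, LinearEquiv.coe_coe]
  exact (LinearEquiv.symm_apply_apply _ _).symm

end Fermat.Agent.TW.GWB

end
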