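import Mathlib
import Fermat.Agent.CFT.PT.DualTwistDict

/-!
# PROGRAM G (S56), block GW-bridge: the transposed dictionary `M' ≅ Hom_ℤ(M, μ_p)`

`PT/DualTwistDict.lean` has `dualTwistIso p M : repZ M ≅ Hom_ℤ(repZ M', μ_p)` for
`M' = M.dualTwist (cycloChar p)`.  Here is the transposed map
`dictT p M : repZ M' ⟶ Hom_ℤ(repZ M, μ_p)`, `f ↦ (m ↦ ζ^(f m))`, which is bijective (no finiteness
needed).  It is the `θ₀` of `PT/MiddleH1.lean` for `N = repZ M`, `M₀ = repZ M'`.
-/

set_option autoImplicit false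

open CategoryTheory

noncomputable section

namespace Fermat.Agent.TW.GWB

open Fermat.Agent.CFT Fermat.Agent.CFT.PT

local notation "Qb" => AlgebraicClosure ℚ
local notation "GQ" => (AlgebraicClosure ℚ ≃ₐ[ℚ] AlgebraicClosure ℚ)

variable (p : ℕ) [hp : Fact p.Prime] (M : Rep (ZMod p) GQ)

/-- `f ↦ (m ↦ ζ^(f m))` as a `ℤ`-linear map `M' → Hom_ℤ(M, μ_p)`. -/
def dictLinT : (repZ (dualTw p M)) →ₗ[ℤ] ((repZ M) →ₗ[ℤ] (muRep p)) :=
  (dictLin p M).flip

theorem dictLinT_apply (f : Module.Dual (ZMod p) M) (m : M) :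
    dictLinT p M (show repZ (dualTw p M) from f) (show repZ M from m) = muEquiv p (f m) := rfl

theorem dictLinT_injective : Function.Injective (dictLinT p M) := by
  rw [injective_iff_map_eq_zero]
  intro f hf
  have h : ∀ m : M, (show Module.Dual (ZMod p) M from f) m = 0 := by
    intro m
    have h1 := LinearMap.congr_fun hf (show repZ M from m)
    have h2 : muEquiv p ((show Module.Dual (ZMod p) M from f) m) = 0 := h1
    exact (muEquiv p).map_eq_zero_iff.1 h2
  exact LinearMap.ext h

theorem dictLinT_surjective : Function.Surjective (dictLinT p M) := by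
  intro ψ
  let φ₀ : M →+ ZMod p :=
    (muEquiv p).symm.toAddMonoidHom.comp (ψ.toAddMonoidHom : (repZ M) →+ (muRep p))
  let φ : Module.Dual (ZMod p) M := φ₀.toZModLinearMap p
  refine ⟨(show repZ (dualTw p M) from φ), ?_⟩
  refine LinearMap.ext fun m => ?_
  show muEquiv p (φ m) = ψ m
  exact (muEquiv p).apply_symm_apply (ψ m)

theorem dictLinT_bijective : Function.Bijective (dictLinT p M) :=
  ⟨dictLinT_injective p M, dictLinT_surjective p M⟩

/-- Equivariance of the transposed dictionary map. -/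
theorem dictLinT_ρ (g : GQ) (f : dualTw p M) :
    dictLinT p M ((repZ (dualTw p M)).ρ g (show repZ (dualTw p M) from f)) =
      ((Rep.ihom (repZ M)).obj (muRep p)).ρ g
        (dictLinT p M (show repZ (dualTw p M) from f)) := by
  refine LinearMap.ext fun m => ?_
  show muEquiv p ((show Module.Dual (ZMod p) M from (dualTw p M).ρ g f) m) =
    (muRep p).ρ g (muEquiv p ((show Module.Dual (ZMod p) M from f) (M.ρ g⁻¹ m)))
  rw [muRep_ρ_muEquiv, Rep.dualTwist_ρ_apply, LinearMap.smul_apply, LinearMap.comp_apply,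
    smul_eq_mul]

/-- **The transposed dictionary** `M' ⟶ Hom_ℤ(M, μ_p)` as a morphism of representations of `G_ℚ`
over `ℤ`. -/
def dictT : repZ (dualTw p M) ⟶ (Rep.ihom (repZ M)).obj (muRep p) :=
  Rep.ofHom ⟨dictLinT p M, fun g => LinearMap.ext fun f => dictLinT_ρ p M g f⟩

theorem dictT_hom_bijective : Function.Bijective (dictT p M).hom :=
  dictLinT_bijective p M

theorem dictT_hom_apply (f : Module.Dual (ZMod p) M) (m : M) :
    (show (repZ M) →ₗ[ℤ] (muRep p) from
        (dictT p M).hom (show repZ (dualTw p M) from f)) (show repZ M from m) =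
      muEquiv p (f m) := rfl

end Fermat.Agent.TW.GWB

end
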