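import Mathlib
import Fermat.Agent.TW.GWB.DictT
import Fermat.Agent.TW.GWB.CxH
import Fermat.Agent.CFT.PT.MiddleH1
import Fermat.Agent.CFT.PT.D3cQ
import Fermat.Agent.CFT.PT.InvCompatLocal
import Fermat.Agent.S55.LCBridgeCompat

/-!
# PROGRAM G (S56), block GW-bridge: the outputs in level-cohomology language

`p` an odd prime, `T ∋ p` a finite set of primes, `M` a finite-dimensional `𝔽_p`-representation of
`G_ℚ`, smooth for `globalLevel T`, `M'` a second one (also smooth) together with a bijective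
morphism `θ₀ : repZ M' ⟶ Hom(repZ M, μ_p)` (for instance `M' = dualTw p M`, `θ₀ = dictT p M`; `M'`
is kept a variable because instance synthesis on families of `LC.H1` of the explicit dual twist is
fragile).  With
`H1 = LC.H1 (globalLevel T) M`, `P1 v = LC.H1 (levelOf (primeLocalToGlobal v)) (Res M)` (`v ∈ T`),
`loc1 = S55.lcLocTotal₁ T M` and the same for `M'`:

* `ptInputsU hp2 hpT : PTInputs p T`: the unconditional inputs of Poitou–Tate over `ℚ`;
* `tateB v : P1 v →ₗ[𝔽_p] P1' v →ₗ[𝔽_p] 𝔽_p`: the local Tate pairing (invariant of the cup product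
  of the pairing `M' × M → μ_p → ℚ̄_vˣ`);
* `tateB_flip_bijective`: `P1' v ≃ Dual (P1 v)` (local Tate duality)  — `hB` of `Count.gw_le`;
* `middle_lc`: `y ∈ range loc1' ↔ ∀ x : H1, Σ_v tateB v (loc1 x v) (y v) = 0` (exactness of the
  Poitou–Tate sequence at the local `H¹` terms) — `hex` of `Count.gw_le`.
-/

set_option autoImplicit false
set_option linter.unusedSectionVars false
set_option linter.style.haveILetI false

open CategoryTheory ExtCitation

noncomputable section

namespace Fermat.Agent.TW.GWB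

open Fermat.Agent.CFT Fermat.Agent.CFT.PT Fermat.Agent.S55 HExt

local notation "Qb" => AlgebraicClosure ℚ
local notation "GQ" => (AlgebraicClosure ℚ ≃ₐ[ℚ] AlgebraicClosure ℚ)

attribute [local instance 2000] Rep.hV2
attribute [local instance 3000] finite_repZ

/-- **The unconditional inputs of Poitou–Tate over `ℚ`** (`p` odd, `p ∈ T`): the term used in
`Fermat.Agent.S55.result`. -/
def ptInputsU {p : ℕ} [Fact p.Prime] (T : Finset Nat.Primes) (hp2 : p ≠ 2)
    (hpT : pPrime p ∈ T) : PTInputs p T :=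
  PTQ.ptInputsQ_of_local T hp2 hpT (by
    have : NumberField ↥(⊥ : IntermediateField ℚ (AlgebraicClosure ℚ)) := ⟨⟩
    exact fun q l _ h _ _ N _ hN hNl hopen y =>
      galInvLevel_locFin_eq_semiLocalInv T q l h N hN hNl hopen y)

theorem ptInputsU_invL {p : ℕ} [Fact p.Prime] (T : Finset Nat.Primes) (hp2 : p ≠ 2)
    (hpT : pPrime p ∈ T) (q : ↥T) : (ptInputsU T hp2 hpT).invL q = invLoc p q.1 := rfl

variable (p : ℕ) [hp : Fact p.Prime] (T : Finset Nat.Primes) (hpT : pPrime p ∈ T)
  (M M' : Rep (ZMod p) GQ) [FiniteDimensional (ZMod p) M]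
  (hM : IsSmooth (globalLevel T) M) (hM' : IsSmooth (globalLevel T) M')
  (θ₀ : repZ M' ⟶ (Rep.ihom (repZ M)).obj (muRep p)) (hθ₀ : Function.Bijective θ₀.hom)

/-- The local Tate pairing on the cohomology of the LC complexes, for `N = repZ M`,
`M₀ = repZ M'`. -/
abbrev tateCx (v : ↥T) :=
  tateLoc p T hpT (repZ M) ((isSmooth_repZ_iff (globalLevel T) M).2 hM)
    (nsmul_repZ_eq_zero p M) ((isSmooth_repZ_iff (globalLevel T) M').2 hM')
    θ₀ hθ₀ (fun q : ↥T => invLoc p q.1) v

/-- `H¹(G_v, M)` in level cohomology and as cohomology of the LC complex of the restricted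
canonical resolution of `repZ M`. -/
def locE (v : ↥T) :
    LC.H1 (levelOf (primeLocalToGlobal v.1)) (Rep.res (primeLocalToGlobal v.1) M) ≃+
      (LC.cx ((zResR (repZ M) ((isSmooth_repZ_iff (globalLevel T) M).2 hM)).res
        ((levelComap_global T).compat v)).smooth).H 1 :=
  cxH1Equiv (Rep.res (primeLocalToGlobal v.1) M) (hM.res ((levelComap_global T).compat v))

/-- `H¹(G_v, M')` in level cohomology and as cohomology of the LC complex of `Res (repZ M')`. -/
def locE' (v : ↥T) :
    LC.H1 (levelOf (primeLocalToGlobal v.1)) (Rep.res (primeLocalToGlobal v.1) M') ≃+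
      (LC.cx (((isSmooth_repZ_iff (globalLevel T) M').2 hM').res
        ((levelComap_global T).compat v))).H 1 :=
  cxH1Equiv (Rep.res (primeLocalToGlobal v.1) M')
    (hM'.res ((levelComap_global T).compat v))

/-- `H¹(G_ℚ, M)` in level cohomology and as cohomology of the LC complex of `repZ M`. -/
def globE :
    LC.H1 (globalLevel T) M ≃+
      (LC.cx (zResR (repZ M) ((isSmooth_repZ_iff (globalLevel T) M).2 hM)).smooth).H 1 :=
  cxH1Equiv M hM

/-- `H¹(G_ℚ, M')` in level cohomology and as cohomology of the LC complex of `repZ M'`. -/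
def globE' :
    LC.H1 (globalLevel T) M' ≃+
      (LC.cx ((isSmooth_repZ_iff (globalLevel T) M').2 hM')).H 1 :=
  cxH1Equiv M' hM'

theorem resH_globE (v : ↥T) (x : LC.H1 (globalLevel T) M) :
    LC.resH ((levelComap_global T).compat v)
        (zResR (repZ M) ((isSmooth_repZ_iff (globalLevel T) M).2 hM)).smooth 1
        (globE p T M hM x) =
      locE p T M hM v (lcLocTotal₁ T M x v) :=
  resH_cxH1Equiv M ((levelComap_global T).compat v) hM x

theorem resH_globE' (v : ↥T) (x : LC.H1 (globalLevel T) M') :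
    LC.resH ((levelComap_global T).compat v)
        ((isSmooth_repZ_iff (globalLevel T) M').2 hM') 1
        (globE' p T M' hM' x) =
      locE' p T M' hM' v (lcLocTotal₁ T M' x v) :=
  resH_cxH1Equiv M' ((levelComap_global T).compat v) hM' x

/-- The local Tate pairing `H¹(G_v, M) × H¹(G_v, M') → 𝔽_p` in level cohomology, additive form. -/
def tateAdd (v : ↥T) :
    LC.H1 (levelOf (primeLocalToGlobal v.1)) (Rep.res (primeLocalToGlobal v.1) M) →+
      LC.H1 (levelOf (primeLocalToGlobal v.1)) (Rep.res (primeLocalToGlobal v.1) M') →+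
        ZMod p :=
  AddMonoidHom.mk' (fun a => AddMonoidHom.mk'
      (fun b => tateCx p T hpT M M' hM hM' θ₀ hθ₀ v (locE' p T M' hM' v b) (locE p T M hM v a))
      (fun b b' => by rw [map_add, map_add, AddMonoidHom.add_apply]))
    (fun a a' => by
      ext b
      simp only [AddMonoidHom.mk'_apply, AddMonoidHom.add_apply, map_add])

theorem tateAdd_apply (v : ↥T)
    (a : LC.H1 (levelOf (primeLocalToGlobal v.1)) (Rep.res (primeLocalToGlobal v.1) M))
    (b : LC.H1 (levelOf (primeLocalToGlobal v.1))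
      (Rep.res (primeLocalToGlobal v.1) M')) :
    tateAdd p T hpT M M' hM hM' θ₀ hθ₀ v a b =
      tateCx p T hpT M M' hM hM' θ₀ hθ₀ v (locE' p T M' hM' v b) (locE p T M hM v a) := rfl

/-- **The local Tate pairing** `H¹(G_v, M) × H¹(G_v, M') → 𝔽_p` in level cohomology. -/
def tateB (v : ↥T) :
    LC.H1 (levelOf (primeLocalToGlobal v.1)) (Rep.res (primeLocalToGlobal v.1) M) →ₗ[ZMod p]
      LC.H1 (levelOf (primeLocalToGlobal v.1))
        (Rep.res (primeLocalToGlobal v.1) M') →ₗ[ZMod p] ZMod p :=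
  zmodBilin (tateAdd p T hpT M M' hM hM' θ₀ hθ₀ v)

theorem tateB_apply (v : ↥T)
    (a : LC.H1 (levelOf (primeLocalToGlobal v.1)) (Rep.res (primeLocalToGlobal v.1) M))
    (b : LC.H1 (levelOf (primeLocalToGlobal v.1))
      (Rep.res (primeLocalToGlobal v.1) M')) :
    tateB p T hpT M M' hM hM' θ₀ hθ₀ v a b =
      tateCx p T hpT M M' hM hM' θ₀ hθ₀ v (locE' p T M' hM' v b) (locE p T M hM v a) := rfl

/-- **Local Tate duality**: `H¹(G_v, M') ≃ Dual (H¹(G_v, M))`. -/
theorem tateB_flip_bijective (v : ↥T) :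
    Function.Bijective (tateB p T hpT M M' hM hM' θ₀ hθ₀ v).flip := by
  have ht : Function.Bijective (tateCx p T hpT M M' hM hM' θ₀ hθ₀ v) :=
    tateLoc_bijective p T hpT (repZ M) ((isSmooth_repZ_iff (globalLevel T) M).2 hM)
      (nsmul_repZ_eq_zero p M) ((isSmooth_repZ_iff (globalLevel T) M').2 hM')
      θ₀ hθ₀ v
  constructor
  · rw [injective_iff_map_eq_zero]
    intro b hb
    have h1 : tateCx p T hpT M M' hM hM' θ₀ hθ₀ v (locE' p T M' hM' v b) = 0 := by
      refine AddMonoidHom.ext fun c => ?_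
      obtain ⟨a, rfl⟩ := (locE p T M hM v).surjective c
      exact LinearMap.congr_fun hb a
    have h2 := ht.1 (h1.trans (map_zero _).symm)
    exact (AddEquiv.map_eq_zero_iff _).1 h2
  · intro φ
    obtain ⟨x', hx'⟩ := ht.2 (φ.toAddMonoidHom.comp (locE p T M hM v).symm.toAddMonoidHom)
    refine ⟨(locE' p T M' hM' v).symm x', LinearMap.ext fun a => ?_⟩
    rw [LinearMap.flip_apply, tateB_apply, AddEquiv.apply_symm_apply, hx']
    simp

include hpT in
/-- **Exactness of the Poitou–Tate sequence at the local `H¹` terms, level-cohomology form**: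
a family of local classes `y_v ∈ H¹(G_v, M')` is the localisation of a global class of
`H¹(G_T, M')` iff it is orthogonal to the localisation of every class of `H¹(G_T, M)` for the sum
of the local Tate pairings.  (`hex` of `Count.gw_le`.) -/
theorem middle_lc (hp2 : p ≠ 2)
    (y : ∀ v : ↥T, LC.H1 (levelOf (primeLocalToGlobal v.1))
      (Rep.res (primeLocalToGlobal v.1) M')) :
    y ∈ LinearMap.range (lcLocTotal₁ T M') ↔
      ∀ x : LC.H1 (globalLevel T) M,
        ∑ v : ↥T, tateB p T hpT M M' hM hM' θ₀ hθ₀ v (lcLocTotal₁ T M x v) (y v) = 0 := by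
  have key := middle_H1 hpT (repZ M) ((isSmooth_repZ_iff (globalLevel T) M).2 hM)
    (nsmul_repZ_eq_zero p M) ((isSmooth_repZ_iff (globalLevel T) M').2 hM')
    θ₀ hθ₀ (ptInputsU T hp2 hpT)
    (fun v => locE' p T M' hM' v (y v))
  have hI : (ptInputsU T hp2 hpT).invL = fun q : ↥T => invLoc p q.1 := rfl
  rw [hI] at key
  constructor
  · rintro ⟨z, rfl⟩ x
    have h1 := key.2 ⟨globE' p T M' hM' z, fun v => resH_globE' p T M' hM' v z⟩
      (globE p T M hM x)
    refine Eq.trans (Finset.sum_congr rfl fun v _ => ?_) h1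
    rw [tateB_apply, ← resH_globE p T M hM v x]
  · intro h
    obtain ⟨x₀, hx₀⟩ := key.1 (fun y₀ => by
      obtain ⟨x, rfl⟩ := (globE p T M hM).surjective y₀
      refine Eq.trans (Finset.sum_congr rfl fun v _ => ?_) (h x)
      rw [tateB_apply, ← resH_globE p T M hM v x])
    refine ⟨(globE' p T M' hM').symm x₀, funext fun v => ?_⟩
    apply (locE' p T M' hM' v).injective
    rw [← resH_globE' p T M' hM' v, AddEquiv.apply_symm_apply]
    exact hx₀ v

end Fermat.Agent.TW.GWB

end
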