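import Mathlib
import Fermat.Agent.S55.LCRes
import Fermat.Agent.CFT.LC.KummerPairing

/-!
# PROGRAM G (S56), block GW-bridge: finiteness of level cohomology in degree 1, abstract part

`L` a level structure on `G`, `A` a finite `G`-module.

* `finite_Z₁_of_subgroup`: if `U ≤ G` has finite index and the LC `1`-cocycles of `U` with values in
  `Res A` form a finite set, then so do the LC `1`-cocycles of `G` (a cocycle is determined by its
  restriction to `U` and its values on a transversal);
* `finite_Z₁_of_trivial`: if `G` acts trivially on the finite `𝔽_p`-vector space `A` and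
  `X(G) = Hom_LC(G, 𝔽_p)` is finite, then the LC `1`-cocycles of `A` form a finite set (compose with
  the linear forms of `A`);
* `finite_H1_of_open`: `H¹_LC(G, A)` is finite as soon as some open subgroup `U` acts trivially on
  `A` and has finite `X(U)`.
-/

set_option autoImplicit false
set_option linter.style.haveILetI false

open CategoryTheory groupCohomology

namespace Fermat.Agent.TW.GWB

open Fermat.Agent.CFT Fermat.Agent.S55

universe u

section Subgroup

variable {k G : Type u} [CommRing k] [Group G] (L : LevelStructure G) (A : Rep.{u} k G)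

/-- A `1`-cocycle is determined by its restriction to a subgroup `U` and its values on the
representatives `Quotient.out q`, `q : G ⧸ U`. -/
theorem cocycle_eq_of_res_eq (U : Subgroup G) {f f' : G → A} (hf : f ∈ cocycles₁ A)
    (hf' : f' ∈ cocycles₁ A) (hU : ∀ u : U, f u = f' u)
    (hq : ∀ q : G ⧸ U, f (Quotient.out q) = f' (Quotient.out q)) : f = f' := by
  funext g
  have hmem : (Quotient.out (g : G ⧸ U))⁻¹ * g ∈ U := by
    rw [← QuotientGroup.eq]
    exact Quotient.out_eq _
  have hg : g = Quotient.out (g : G ⧸ U) * ((Quotient.out (g : G ⧸ U))⁻¹ * g) := by group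
  have h1 := (mem_cocycles₁_iff f).1 hf (Quotient.out (g : G ⧸ U))
    ((Quotient.out (g : G ⧸ U))⁻¹ * g)
  have h2 := (mem_cocycles₁_iff f').1 hf' (Quotient.out (g : G ⧸ U))
    ((Quotient.out (g : G ⧸ U))⁻¹ * g)
  rw [← hg] at h1 h2
  rw [h1, h2, hq, show f ((Quotient.out (g : G ⧸ U))⁻¹ * g) = f' ((Quotient.out (g : G ⧸ U))⁻¹ * g)
    from hU ⟨_, hmem⟩]

/-- Finiteness of the LC `1`-cocycles descends from a subgroup of finite index. -/
theorem finite_Z₁_of_subgroup [Finite A] (U : Subgroup G) [U.FiniteIndex]
    [Finite ↥(LC.Z₁ (L.comap U.subtype) (Rep.res U.subtype A))] : Finite ↥(LC.Z₁ L A) := by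
  haveI : Finite (G ⧸ U) := Subgroup.finite_quotient_of_finiteIndex
  let Φ : ↥(LC.Z₁ L A) → ↥(LC.Z₁ (L.comap U.subtype) (Rep.res U.subtype A)) × (G ⧸ U → A) :=
    fun f => (lcResZ₁ A (levelCompat_comap U.subtype L) f,
      fun q => (f : G → A) (Quotient.out q))
  refine Finite.of_injective Φ fun f f' h => ?_
  apply Subtype.ext
  refine cocycle_eq_of_res_eq A U f.2.1 f'.2.1 (fun u => ?_) (fun q => ?_)
  · have := congrArg (fun x => (x.1 : U → Rep.res U.subtype A) u) h
    exact this
  · exact congrFun (congrArg Prod.snd h) q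

end Subgroup

section Trivial

variable {G : Type} [Group G] (L : LevelStructure G) (p : ℕ) [Fact p.Prime]
  (A : Rep.{0} (ZMod p) G)

/-- The LC homomorphism `φ ∘ f : G → 𝔽_p` attached to an LC `1`-cocycle `f` of a module with trivial
action and a linear form `φ`. -/
def compChar (htriv : ∀ (g : G) (a : A), A.ρ g a = a) (f : ↥(LC.Z₁ L A))
    (φ : Module.Dual (ZMod p) A) : LCSym.XChar L p :=
  ⟨fun g => φ ((f : G → A) g), by
    refine ⟨(mem_cocycles₁_iff (A := LCSym.FpRep G p) _).2 fun g h => ?_, f.2.2.comp φ⟩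
    have h1 := (mem_cocycles₁_iff (f : G → A)).1 f.2.1 g h
    rw [h1, htriv, map_add]
    rfl⟩

/-- Trivial action and finite `X(G)`: finitely many LC `1`-cocycles. -/
theorem finite_Z₁_of_trivial [Finite A] (htriv : ∀ (g : G) (a : A), A.ρ g a = a)
    [Finite (LCSym.XChar L p)] : Finite ↥(LC.Z₁ L A) := by
  haveI : Finite (Module.Dual (ZMod p) A) := Finite.of_injective _ DFunLike.coe_injective
  refine Finite.of_injective (compChar L p A htriv) fun f f' h => ?_
  apply Subtype.ext
  funext g
  rw [← sub_eq_zero, ← Module.forall_dual_apply_eq_zero_iff (ZMod p)]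
  intro φ
  rw [map_sub, sub_eq_zero]
  exact congrFun (congrArg Subtype.val (congrFun h φ)) g

/-- **Finiteness of `H¹_LC(G, A)`**: `A` a finite `𝔽_p`-vector space on which the open subgroup `U`
acts trivially, `X(U)` finite. -/
theorem finite_H1_of_open [Finite A] (U : Subgroup G) (hU : L.IsOpen U)
    (htriv : ∀ u ∈ U, ∀ a : A, A.ρ u a = a)
    [Finite (LCSym.XChar (L.comap U.subtype) p)] : Finite (LC.H1 L A) := by
  haveI : U.FiniteIndex := hU.finiteIndex
  haveI : Finite ↥(LC.Z₁ (L.comap U.subtype) (Rep.res U.subtype A)) :=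
    finite_Z₁_of_trivial (L.comap U.subtype) p (Rep.res U.subtype A) fun u a => htriv u.1 u.2 a
  haveI : Finite ↥(LC.Z₁ L A) := finite_Z₁_of_subgroup L A U
  exact Finite.of_surjective _ (Submodule.mkQ_surjective _)

end Trivial

end Fermat.Agent.TW.GWB
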