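import Mathlib
import Fermat.Agent.TW.GWB.FinAbstract
import Fermat.Agent.CFT.PT.PTInputsQLevels
import Fermat.Agent.CFT.PT.PTInputsInst

/-!
# PROGRAM G (S56), block GW-bridge: finiteness of `H¹` in level cohomology, global and local

* `finite_H1_global`: `p` odd, `p ∈ T`, `M` a finite `𝔽_p[G_ℚ]`-module smooth for `globalLevel T`:
  `LC.H1 (globalLevel T) M` is finite (the open subgroup `N ∩ Gal(ℚ̄/ℚ(μ_p))`, `N` a level acting
  trivially on `M`, has finitely many characters of order `p` unramified outside `T`: the finiteness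
  half of the existence theorem `PTQ.hEB_Q_final`);
* `finite_H1_local`: `q` any prime, `M` a finite `𝔽_p[G_{ℚ_q}]`-module smooth for
  `levelOf (primeLocalToGlobal q)`: `LC.H1 (levelOf (primeLocalToGlobal q)) M` is finite
  (`local_kummer_perfect`);
* the `FiniteDimensional (ZMod p)` forms.
-/

set_option autoImplicit false
set_option linter.style.haveILetI false
set_option linter.unusedSectionVars false

open CategoryTheory groupCohomology IntermediateField

namespace Fermat.Agent.TW.GWB

open Fermat.Agent.CFT Fermat.Agent.S55 Fermat.Agent.CFT.PT ExtCitation GaloisTower LayerMaps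

local notation "Qb" => AlgebraicClosure ℚ
local notation "GQ" => (AlgebraicClosure ℚ ≃ₐ[ℚ] AlgebraicClosure ℚ)

section Global

variable {p : ℕ} [Fact p.Prime] (T : Finset Nat.Primes) (hp2 : p ≠ 2) (hpT : pPrime p ∈ T)
  (M : Rep (ZMod p) GQ) [Finite M] (hM : IsSmooth (globalLevel T) M)

include hp2 hpT hM in
/-- **`H¹(G_{ℚ,T}, M)` is finite** (level cohomology). -/
theorem finite_H1_global : Finite (LC.H1 (globalLevel T) M) := by
  obtain ⟨N, hN, hfix⟩ := hM.exists_level_of_finite (Set.finite_univ (α := M))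
  have hU : (globalLevel T).IsOpen (N ⊓ globalG0 p) :=
    LevelStructure.IsOpen.inf (globalLevel T) ((globalLevel T).isOpen_of_isLevel hN)
      (isOpen_globalG0 p T hpT)
  haveI : Finite (LCSym.XChar ((globalLevel T).comap (N ⊓ globalG0 p).subtype) p) :=
    (PTQ.hEB_Q_final T hp2 hpT (N ⊓ globalG0 p) hU inf_le_right).1.1
  exact finite_H1_of_open (globalLevel T) p M (N ⊓ globalG0 p) hU
    fun u hu a => hfix a (Set.mem_univ a) u hu.1

end Global

section Local

variable (q : ℕ) [Fact q.Prime] (p : ℕ) [Fact p.Prime]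

/-- `X(Gal(ℚ̄_q/F))` is finite for `F/ℚ_q` finite containing `ζ_p`. -/
theorem finite_XChar_local (F : IntermediateField ℚ_[q] (PadicAlgCl q))
    [FiniteDimensional ℚ_[q] F] {ζ : PadicAlgCl q} (hζ : IsPrimitiveRoot ζ p) (hζF : ζ ∈ F) :
    Finite (LCSym.XChar ((levelOf (localGaloisToGlobal q)).comap F.fixingSubgroup.subtype) p) := by
  have hS : (levelOf (localGaloisToGlobal q)).IsOpen F.fixingSubgroup :=
    isOpen_fixingSubgroup (levelOf (localGaloisToGlobal q)) (levelOf_local_cofinal q) F
  exact (local_kummer_perfect ℤ_[q] (levelOf (localGaloisToGlobal q))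
    (levelOf_local_galoisType q) (levelOf_local_cofinal q) F Fact.out hζ hζF
    (galTauS (levelOf (localGaloisToGlobal q)) (levelOf_local_galoisType q)
      (levelOf_local_cofinal q) (padicLayerInvSystem q) p F.fixingSubgroup hS)
    (galTauS_bijective (levelOf (localGaloisToGlobal q)) (levelOf_local_galoisType q)
      (levelOf_local_cofinal q) (padicLayerInvSystem q) p _ hS).1).1.1

/-- **`H¹(G_{ℚ_q}, M)` is finite** (level cohomology), `M` a finite smooth `𝔽_p`-module. -/
theorem finite_H1_padic (M : Rep (ZMod p) (PadicAlgCl q ≃ₐ[ℚ_[q]] PadicAlgCl q)) [Finite M]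
    (hM : IsSmooth (levelOf (localGaloisToGlobal q)) M) :
    Finite (LC.H1 (levelOf (localGaloisToGlobal q)) M) := by
  have hp : p.Prime := Fact.out
  haveI : CharZero (PadicAlgCl q) :=
    charZero_of_injective_algebraMap (algebraMap ℚ_[q] (PadicAlgCl q)).injective
  haveI : NeZero (p : PadicAlgCl q) := ⟨Nat.cast_ne_zero.2 hp.ne_zero⟩
  obtain ⟨ζ, hζ⟩ := HasEnoughRootsOfUnity.exists_primitiveRoot (PadicAlgCl q) p
  obtain ⟨N, hN, hfix⟩ := hM.exists_level_of_finite (Set.finite_univ (α := M))
  obtain ⟨F₀, hfd, -, rfl⟩ := levelOf_local_galoisType q N hN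
  haveI := hfd
  haveI : FiniteDimensional ℚ_[q] (IntermediateField.adjoin ℚ_[q] {ζ}) :=
    IntermediateField.adjoin.finiteDimensional (Algebra.IsIntegral.isIntegral ζ)
  have hζF : ζ ∈ F₀ ⊔ IntermediateField.adjoin ℚ_[q] {ζ} :=
    (le_sup_right : IntermediateField.adjoin ℚ_[q] {ζ} ≤ _)
      (IntermediateField.mem_adjoin_simple_self ℚ_[q] ζ)
  haveI := finite_XChar_local q p (F₀ ⊔ IntermediateField.adjoin ℚ_[q] {ζ}) hζ hζF
  refine finite_H1_of_open (levelOf (localGaloisToGlobal q)) p M
    (F₀ ⊔ IntermediateField.adjoin ℚ_[q] {ζ}).fixingSubgroup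
    (isOpen_fixingSubgroup (levelOf (localGaloisToGlobal q)) (levelOf_local_cofinal q) _)
    fun u hu a => hfix a (Set.mem_univ a) u ?_
  exact IntermediateField.fixingSubgroup_le (le_sup_left : F₀ ≤ _) hu

end Local

section Forms

variable {p : ℕ} [Fact p.Prime]

/-- **`H¹(G_{ℚ_q}, M)` is finite**, for the local groups and level structures of S55. -/
theorem finite_H1_local (q : Nat.Primes) (M : Rep (ZMod p) (primeLocalGaloisGroup q)) [Finite M]
    (hM : IsSmooth (levelOf (primeLocalToGlobal q)) M) :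
    Finite (LC.H1 (levelOf (primeLocalToGlobal q)) M) := by
  haveI : Fact (q : ℕ).Prime := ⟨q.2⟩
  exact finite_H1_padic (q : ℕ) p M hM

/-- `H¹(G_{ℚ,T}, M)` is a finite-dimensional `𝔽_p`-vector space. -/
theorem finiteDimensional_H1_global (T : Finset Nat.Primes) (hp2 : p ≠ 2) (hpT : pPrime p ∈ T)
    (M : Rep (ZMod p) GQ) [FiniteDimensional (ZMod p) M] (hM : IsSmooth (globalLevel T) M) :
    FiniteDimensional (ZMod p) (LC.H1 (globalLevel T) M) := by
  haveI : Finite M := Module.finite_of_finite (ZMod p)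
  haveI := finite_H1_global T hp2 hpT M hM
  exact Module.Finite.of_finite

/-- `H¹(G_{ℚ_v}, M)` is a finite-dimensional `𝔽_p`-vector space (`v ∈ T`, `M` a global module). -/
theorem finiteDimensional_H1_local (T : Finset Nat.Primes) (M : Rep (ZMod p) GQ)
    [FiniteDimensional (ZMod p) M] (hM : IsSmooth (globalLevel T) M) (v : ↥T) :
    FiniteDimensional (ZMod p)
      (LC.H1 (levelOf (primeLocalToGlobal v.1)) (Rep.res (primeLocalToGlobal v.1) M)) := by
  haveI : Finite M := Module.finite_of_finite (ZMod p)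
  haveI : Finite (Rep.res (primeLocalToGlobal v.1) M) := ‹Finite M›
  haveI := finite_H1_local v.1 (Rep.res (primeLocalToGlobal v.1) M)
    (hM.res ((levelComap_global T).compat v))
  exact Module.Finite.of_finite

end Forms

end Fermat.Agent.TW.GWB
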