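import Mathlib
import Fermat.Agent.CFT.PT.MiddleH1

/-!
# PROGRAM G (S56), block GW-bridge: `Hⁿ(G_ℚ, M₀) ≃ Extⁿ(N, E_S)` in all degrees

Setting of `CFT/PT/MiddleH1.lean`: `N` a finite smooth `p`-torsion `ℤ[G_ℚ]`-module, `M₀` a smooth
module with a bijective morphism `θ₀ : M₀ ⟶ Hom(N, μ_p)`.

* `midIdentN n : Hⁿ(G_ℚ, M₀) ≃+ Extⁿ(N, E_S)`, `midIdentLocN q n : Hⁿ(G_{ℚ_q}, M₀) ≃+ Extⁿ(N_q, ℚ̄_qˣ)`,
  `jsLoc_midIdentN`: the localisation square;
* `shaCx M₀ n`: the classes of `Hⁿ(G_ℚ, M₀)` which are locally trivial at all `q ∈ S`;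
* `shaCx₂EquivKer : shaCx M₀ 2 ≃+ ker (jsLoc2 S (zResR N))`,
  `shaCx₁EquivKer : shaCx N 1 ≃+ ker (jsLoc1 S (zResR N))`.
-/

set_option autoImplicit false
set_option linter.unusedSectionVars false
set_option linter.style.haveILetI false

open CategoryTheory ExtCitation

noncomputable section

namespace Fermat.Agent.TW.GWB

open Fermat.Agent.CFT Fermat.Agent.CFT.PT Fermat.Agent.S55 HExt LatticePair

local notation "Qb" => AlgebraicClosure ℚ
local notation "GQ" => (AlgebraicClosure ℚ ≃ₐ[ℚ] AlgebraicClosure ℚ)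

attribute [local instance 2000] Rep.hV2
attribute [local instance 3000] projective_P₀_of_free projective_P₁_of_free
attribute [local instance 3000] moduleFinite_of_finite_rep

/-- An additive equivalence restricts to an equivalence between corresponding subgroups. -/
def addEquivSubgroups {A B : Type*} [AddCommGroup A] [AddCommGroup B] (e : A ≃+ B)
    (SA : AddSubgroup A) (SB : AddSubgroup B) (h : ∀ a, e a ∈ SB ↔ a ∈ SA) : ↥SA ≃+ ↥SB where
  toFun x := ⟨e x.1, (h x.1).2 x.2⟩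
  invFun y := ⟨e.symm y.1, by
    rw [← h, AddEquiv.apply_symm_apply]
    exact y.2⟩
  left_inv x := Subtype.ext (e.symm_apply_apply x.1)
  right_inv y := Subtype.ext (e.apply_symm_apply y.1)
  map_add' x y := Subtype.ext (map_add e x.1 y.1)

@[simp] theorem addEquivSubgroups_coe {A B : Type*} [AddCommGroup A] [AddCommGroup B] (e : A ≃+ B)
    (SA : AddSubgroup A) (SB : AddSubgroup B) (h : ∀ a, e a ∈ SB ↔ a ∈ SA) (x : ↥SA) :
    ((addEquivSubgroups e SA SB h x : ↥SB) : B) = e x.1 := rfl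

/-- The additive dual of a finite `𝔽_p`-vector space has the same cardinality. -/
theorem card_addDual_zmod {p : ℕ} [Fact p.Prime] (V : Type*) [AddCommGroup V]
    [Module (ZMod p) V] [Finite V] : Nat.card (V →+ ZMod p) = Nat.card V := by
  haveI : Module.Finite (ZMod p) V := Module.Finite.of_finite
  let φ : (V →+ ZMod p) ≃ Module.Dual (ZMod p) V :=
    { toFun := fun f => AddMonoidHom.toZModLinearMap p f
      invFun := fun g => g.toAddMonoidHom
      left_inv := fun f => by ext; rfl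
      right_inv := fun g => by ext; rfl }
  rw [Nat.card_congr φ, Module.natCard_eq_pow_finrank (K := ZMod p) (V := Module.Dual (ZMod p) V),
    Module.natCard_eq_pow_finrank (K := ZMod p) (V := V), Subspace.dual_finrank_eq]

variable (p : ℕ) [hp : Fact p.Prime] (S : Finset Nat.Primes) (hpS : pPrime p ∈ S)
  (N : Rep.{0} ℤ GQ) [Finite N] (hN : IsSmooth (globalLevel S) N) (hpN : ∀ n : N, p • n = 0)
  {M₀ : Rep.{0} ℤ GQ} (hM₀ : IsSmooth (globalLevel S) M₀)
  (θ₀ : M₀ ⟶ (Rep.ihom N).obj (muRep p)) (hθ₀ : Function.Bijective θ₀.hom)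

/-- `Hⁿ(G_ℚ, M₀) ≃ Extⁿ(N, E_S)`. -/
def midIdentN (n : ℕ) : (LC.cx hM₀).H n ≃+
    (zResR N hN).Ext (isSmooth_esRep (globalLevel S) Qb (↑S : Set Nat.Primes)) n :=
  addEquivOfIntLinearEquiv
    ((zResR N hN).identH (isSmooth_esRep (globalLevel S) Qb (↑S : Set Nat.Primes))
      (mid_hsurjE p S hpS N hN hpN) hM₀ (midTheta p S hpS N θ₀)
      (midTheta_bijective p S hpS N hpN θ₀ hθ₀) n)

/-- `Hⁿ(G_{ℚ_q}, M₀) ≃ Extⁿ(N_q, ℚ̄_qˣ)`. -/
def midIdentLocN (q : ↥S) (n : ℕ) :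
    (LC.cx (hM₀.res ((levelComap_global S).compat q))).H n ≃+
      ((zResR N hN).res ((levelComap_global S).compat q)).Ext (isSmooth_primeUnitsRep q.1) n :=
  addEquivOfIntLinearEquiv
    ((zResR N hN).identHLoc (levelComap_global S)
      (esToJsHom (globalLevel S) Qb (↑S : Set Nat.Primes))
      (fun q : ↥S => isSmooth_primeUnitsRep q.1) (evQ (globalLevel S) S)
      (mid_hsurjY p S N hN hpN) hM₀ (midTheta p S hpS N θ₀)
      (midTheta_thetaLoc_bijective p S hpS N hpN θ₀ hθ₀) q n)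

/-- The localisation square, all degrees. -/
theorem jsLoc_midIdentN (n : ℕ) (y : (LC.cx hM₀).H n) (q : ↥S) :
    Ext.loc (levelComap_global S) (zResR N hN).toLatticePair
        (isSmooth_jsRep (globalLevel S) Qb (↑S : Set Nat.Primes))
        (fun q : ↥S => isSmooth_primeUnitsRep q.1) (evQ (globalLevel S) S) n
        (Ext.map₂ (zResR N hN).toLatticePair
          (isSmooth_esRep (globalLevel S) Qb (↑S : Set Nat.Primes))
          (isSmooth_jsRep (globalLevel S) Qb (↑S : Set Nat.Primes))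
          (esToJsHom (globalLevel S) Qb (↑S : Set Nat.Primes)) n
          (midIdentN p S hpS N hN hpN hM₀ θ₀ hθ₀ n y)) q =
      midIdentLocN p S hpS N hN hpN hM₀ θ₀ hθ₀ q n
        (LC.resH ((levelComap_global S).compat q) hM₀ n y) :=
  (zResR N hN).loc_map₂_identH (levelComap_global S)
    (isSmooth_esRep (globalLevel S) Qb (↑S : Set Nat.Primes))
    (isSmooth_jsRep (globalLevel S) Qb (↑S : Set Nat.Primes))
    (esToJsHom (globalLevel S) Qb (↑S : Set Nat.Primes))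
    (fun q : ↥S => isSmooth_primeUnitsRep q.1) (evQ (globalLevel S) S)
    (mid_hsurjE p S hpS N hN hpN) (mid_hsurjY p S N hN hpN) hM₀ (midTheta p S hpS N θ₀)
    (midTheta_bijective p S hpS N hpN θ₀ hθ₀)
    (midTheta_thetaLoc_bijective p S hpS N hpN θ₀ hθ₀) n y q

/-- The classes of `Hⁿ(G_ℚ, A)` (cohomology of the LC complex) locally trivial at all `q ∈ S`. -/
def shaCx {A : Rep.{0} ℤ GQ} (hA : IsSmooth (globalLevel S) A) (n : ℕ) :
    AddSubgroup ((LC.cx hA).H n) where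
  carrier := {y | ∀ q : ↥S, LC.resH ((levelComap_global S).compat q) hA n y = 0}
  add_mem' {x y} hx hy q := by rw [map_add, hx q, hy q, add_zero]
  zero_mem' q := map_zero _
  neg_mem' {x} hx q := by rw [map_neg, hx q, neg_zero]

theorem mem_shaCx_iff {A : Rep.{0} ℤ GQ} (hA : IsSmooth (globalLevel S) A) (n : ℕ)
    (y : (LC.cx hA).H n) :
    y ∈ shaCx S hA n ↔ ∀ q : ↥S, LC.resH ((levelComap_global S).compat q) hA n y = 0 := Iff.rfl

theorem midIdentN_mem_ker_jsLoc2_iff (y : (LC.cx hM₀).H 2) :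
    midIdentN p S hpS N hN hpN hM₀ θ₀ hθ₀ 2 y ∈ (jsLoc2 S (zResR N hN)).ker ↔
      y ∈ shaCx S hM₀ 2 := by
  rw [AddMonoidHom.mem_ker, mem_shaCx_iff]
  constructor
  · intro h q
    have h1 := jsLoc_midIdentN p S hpS N hN hpN hM₀ θ₀ hθ₀ 2 y q
    have h2 : Ext.loc (levelComap_global S) (zResR N hN).toLatticePair
        (isSmooth_jsRep (globalLevel S) Qb (↑S : Set Nat.Primes))
        (fun q : ↥S => isSmooth_primeUnitsRep q.1) (evQ (globalLevel S) S) 2
        (Ext.map₂ (zResR N hN).toLatticePair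
          (isSmooth_esRep (globalLevel S) Qb (↑S : Set Nat.Primes))
          (isSmooth_jsRep (globalLevel S) Qb (↑S : Set Nat.Primes))
          (esToJsHom (globalLevel S) Qb (↑S : Set Nat.Primes)) 2
          (midIdentN p S hpS N hN hpN hM₀ θ₀ hθ₀ 2 y)) q = 0 := congrFun h q
    rw [h1] at h2
    exact (AddEquiv.map_eq_zero_iff _).1 h2
  · intro h
    funext q
    have h1 := jsLoc_midIdentN p S hpS N hN hpN hM₀ θ₀ hθ₀ 2 y q
    rw [h q, map_zero] at h1
    exact h1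

/-- `Ш²(M₀) ≃ ker (Ext²(N, E_S) → ∏ Ext²(N_q, ℚ̄_qˣ))`. -/
def shaCx₂EquivKer : ↥(shaCx S hM₀ 2) ≃+ ↥(jsLoc2 S (zResR N hN)).ker :=
  addEquivSubgroups (midIdentN p S hpS N hN hpN hM₀ θ₀ hθ₀ 2) _ _
    (midIdentN_mem_ker_jsLoc2_iff p S hpS N hN hpN hM₀ θ₀ hθ₀)

theorem mem_ker_jsLoc1_iff (y : (LC.cx (zResR N hN).smooth).H 1) :
    y ∈ (jsLoc1 S (zResR N hN)).ker ↔ y ∈ shaCx S (zResR N hN).smooth 1 := by
  rw [AddMonoidHom.mem_ker, mem_shaCx_iff]
  constructor
  · intro h q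
    exact congrFun h q
  · intro h
    funext q
    exact h q

/-- `Ш¹(N) = ker (jsLoc1 S (zResR N))`. -/
def shaCx₁EquivKer : ↥(shaCx S (zResR N hN).smooth 1) ≃+ ↥(jsLoc1 S (zResR N hN)).ker :=
  addEquivSubgroups (AddEquiv.refl _) _ _ fun y => (mem_ker_jsLoc1_iff S N hN y)

end Fermat.Agent.TW.GWB

end
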