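import Mathlib
import Fermat.Agent.TW.GWB.MidN
import Fermat.Agent.TW.GWB.BridgeOut
import Fermat.Agent.S55.PTGlueCard

/-!
# PROGRAM G (S56), block GW-bridge: local Tate duality in degree `(2, 0)`, level-cohomology form

`p` a prime, `p ∈ T`, `(M, M', θ₀)` a dual pair of finite `𝔽_p[G_ℚ]`-modules smooth for
`globalLevel T` (`θ₀ : repZ M' ⟶ Hom(repZ M, μ_p)` bijective), `v ∈ T`:

* `locH2Ext v : H²(G_v, M') ≃+ Ext²(N_v, ℚ̄_vˣ)` (`N = repZ M`; `LC.H2` on the left);
* `locH0 v : H⁰` of the LC complex of `Res N` `≃+` the invariants `(Res M)^{G_v}`;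
* `locH2Dual v : H²(G_v, M') ≃+ Hom((Res M)^{G_v}, ℤ/p)` (local duality `dual2`);
* `finite_H2_local`, `finiteDimensional_H2_local`;
* `locd v : finrank H²(G_v, M') = finrank (Res M)^{G_v}` (`hlocd` of `CountDual.gw_le_dual`, with
  equality).
-/

set_option autoImplicit false
set_option linter.unusedSectionVars false
set_option linter.style.haveILetI false

open CategoryTheory ExtCitation

noncomputable section

namespace Fermat.Agent.TW.GWB

open Fermat.Agent.CFT Fermat.Agent.CFT.PT Fermat.Agent.S55 HExt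

local notation "Qb" => AlgebraicClosure ℚ
local notation "GQ" => (AlgebraicClosure ℚ ≃ₐ[ℚ] AlgebraicClosure ℚ)

attribute [local instance 2000] Rep.hV2
attribute [local instance 3000] finite_repZ

/-- The invariants of `repZ A` and of `A`. -/
def invariantsRepZ {k G : Type} [CommRing k] [Group G] (A : Rep k G) :
    ↥((repZ A).ρ.invariants) ≃+ ↥(A.ρ.invariants) where
  toFun x := ⟨x.1, fun g => x.2 g⟩
  invFun y := ⟨y.1, fun g => y.2 g⟩
  left_inv _ := rfl
  right_inv _ := rfl
  map_add' _ _ := rfl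

variable (p : ℕ) [hp : Fact p.Prime] (T : Finset Nat.Primes) (hpT : pPrime p ∈ T)
  (M M' : Rep (ZMod p) GQ) [FiniteDimensional (ZMod p) M]
  (hM : IsSmooth (globalLevel T) M) (hM' : IsSmooth (globalLevel T) M')
  (θ₀ : repZ M' ⟶ (Rep.ihom (repZ M)).obj (muRep p)) (hθ₀ : Function.Bijective θ₀.hom)

/-- `H²(G_v, M') ≃ Ext²(N_v, ℚ̄_vˣ)`, `N = repZ M`. -/
def locH2Ext (v : ↥T) :
    LC.H2 (levelOf (primeLocalToGlobal v.1)) (Rep.res (primeLocalToGlobal v.1) M') ≃+
      ((zResR (repZ M) ((isSmooth_repZ_iff (globalLevel T) M).2 hM)).res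
        ((levelComap_global T).compat v)).Ext (isSmooth_primeUnitsRep v.1) 2 :=
  (cxH2Equiv (Rep.res (primeLocalToGlobal v.1) M')
      (hM'.res ((levelComap_global T).compat v))).trans
    (midIdentLocN p T hpT (repZ M) ((isSmooth_repZ_iff (globalLevel T) M).2 hM)
      (nsmul_repZ_eq_zero p M) ((isSmooth_repZ_iff (globalLevel T) M').2 hM') θ₀ hθ₀ v 2)

/-- `H⁰(G_v, N)` (cohomology of the LC complex) is the module of invariants `(Res M)^{G_v}`. -/
def locH0 (v : ↥T) :
    (LC.cx ((zResR (repZ M) ((isSmooth_repZ_iff (globalLevel T) M).2 hM)).res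
      ((levelComap_global T).compat v)).smooth).H 0 ≃+
      ↥((Rep.res (primeLocalToGlobal v.1) M).ρ.invariants) :=
  (addEquivOfIntLinearEquiv (LC.h0Equiv
    ((zResR (repZ M) ((isSmooth_repZ_iff (globalLevel T) M).2 hM)).res
      ((levelComap_global T).compat v)).smooth)).trans
    (invariantsRepZ (Rep.res (primeLocalToGlobal v.1) M))

/-- The local duality map `Ext²(N_v, ℚ̄_vˣ) → Hom(H⁰(G_v, N), ℤ/p)` is bijective. -/
theorem dual2_loc_bijective (v : ↥T) :
    Function.Bijective
      (((zResR (repZ M) ((isSmooth_repZ_iff (globalLevel T) M).2 hM)).res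
        ((levelComap_global T).compat v)).dual2 p (isSmooth_primeUnitsRep v.1)
        (hpN_res (r := fun q : ↥T => primeLocalToGlobal q.1) p (nsmul_repZ_eq_zero p M) v)
        (invLoc p v.1)) :=
  ((zResR_res_isPerfect_iff (repZ M) ((isSmooth_repZ_iff (globalLevel T) M).2 hM)
      ((levelComap_global T).compat v) (isSmooth_primeUnitsRep v.1) p
      (nsmul_repZ_eq_zero p M) (invLoc p v.1)).2
    (local_duality p v.1 ⟨Rep.res (primeLocalToGlobal v.1) (repZ M),
      ((isSmooth_repZ_iff (globalLevel T) M).2 hM).res ((levelComap_global T).compat v),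
      nsmul_repZ_eq_zero p M⟩)).2

/-- **Local Tate duality, degree `(2, 0)`**: `H²(G_v, M') ≃ Hom((Res M)^{G_v}, ℤ/p)`. -/
def locH2Dual (v : ↥T) :
    LC.H2 (levelOf (primeLocalToGlobal v.1)) (Rep.res (primeLocalToGlobal v.1) M') ≃+
      (↥((Rep.res (primeLocalToGlobal v.1) M).ρ.invariants) →+ ZMod p) :=
  ((locH2Ext p T hpT M M' hM hM' θ₀ hθ₀ v).trans
    (AddEquiv.ofBijective _ (dual2_loc_bijective p T M hM v))).trans
    (AddEquiv.addMonoidHomCongrLeft (locH0 p T M hM v))

theorem locH2Dual_apply (v : ↥T)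
    (x : LC.H2 (levelOf (primeLocalToGlobal v.1)) (Rep.res (primeLocalToGlobal v.1) M'))
    (c : (LC.cx ((zResR (repZ M) ((isSmooth_repZ_iff (globalLevel T) M).2 hM)).res
      ((levelComap_global T).compat v)).smooth).H 0) :
    locH2Dual p T hpT M M' hM hM' θ₀ hθ₀ v x (locH0 p T M hM v c) =
      ((zResR (repZ M) ((isSmooth_repZ_iff (globalLevel T) M).2 hM)).res
        ((levelComap_global T).compat v)).dual2 p (isSmooth_primeUnitsRep v.1)
        (hpN_res (r := fun q : ↥T => primeLocalToGlobal q.1) p (nsmul_repZ_eq_zero p M) v)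
        (invLoc p v.1) (locH2Ext p T hpT M M' hM hM' θ₀ hθ₀ v x) c := by
  simp [locH2Dual]

include hpT hM hM' hθ₀ in
/-- `H²(G_v, M')` is finite. -/
theorem finite_H2_local (v : ↥T) :
    Finite (LC.H2 (levelOf (primeLocalToGlobal v.1)) (Rep.res (primeLocalToGlobal v.1) M')) := by
  haveI : Finite M := Module.finite_of_finite (ZMod p)
  haveI : Finite ↥((Rep.res (primeLocalToGlobal v.1) M).ρ.invariants) :=
    Finite.of_injective (fun x => (x.1 : M)) Subtype.val_injective
  haveI : Finite (↥((Rep.res (primeLocalToGlobal v.1) M).ρ.invariants) →+ ZMod p) :=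
    Finite.of_injective _ DFunLike.coe_injective
  exact Finite.of_equiv _ (locH2Dual p T hpT M M' hM hM' θ₀ hθ₀ v).symm.toEquiv

include hpT hM hM' hθ₀ in
theorem finiteDimensional_H2_local (v : ↥T) :
    FiniteDimensional (ZMod p)
      (LC.H2 (levelOf (primeLocalToGlobal v.1)) (Rep.res (primeLocalToGlobal v.1) M')) := by
  haveI := finite_H2_local p T hpT M M' hM hM' θ₀ hθ₀ v
  exact Module.Finite.of_finite

include hpT hM hM' hθ₀ in
/-- **`dim H²(G_v, M') = dim (Res M)^{G_v}`** (`hlocd` of `CountDual.gw_le_dual`, with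
equality). -/
theorem locd (v : ↥T) :
    Module.finrank (ZMod p)
        (LC.H2 (levelOf (primeLocalToGlobal v.1)) (Rep.res (primeLocalToGlobal v.1) M')) =
      Module.finrank (ZMod p) ↥((Rep.res (primeLocalToGlobal v.1) M).ρ.invariants) := by
  haveI : Finite M := Module.finite_of_finite (ZMod p)
  haveI : Finite ↥((Rep.res (primeLocalToGlobal v.1) M).ρ.invariants) :=
    Finite.of_injective (fun x => (x.1 : M)) Subtype.val_injective
  have hcard : Nat.card (LC.H2 (levelOf (primeLocalToGlobal v.1))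
      (Rep.res (primeLocalToGlobal v.1) M')) =
      Nat.card ↥((Rep.res (primeLocalToGlobal v.1) M).ρ.invariants) := by
    rw [← card_addDual_zmod (p := p) ↥((Rep.res (primeLocalToGlobal v.1) M).ρ.invariants)]
    exact Nat.card_congr (locH2Dual p T hpT M M' hM hM' θ₀ hθ₀ v).toEquiv
  exact ((finrank_eq_of_card_eq (p := p) hcard).2.2).symm

end Fermat.Agent.TW.GWB

end
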