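import Mathlib
import Fermat.Agent.TW.GWB.MidN
import Fermat.Agent.TW.GWB.BridgeOut
import Fermat.Agent.TW.GWB.FinH1
import Fermat.Agent.S55.PTGlueCard

/-!
# PROGRAM G (S56), block GW-bridge: `Ш²(M') ≃ Ш¹(M)^∨` in level-cohomology language, generic form

`p` odd, `p ∈ T`, `M`, `M'` finite `𝔽_p[G_ℚ]`-modules smooth for `globalLevel T` and a bijective
morphism `θ₀ : repZ M' ⟶ Hom(repZ M, μ_p)` (e.g. `M' = dualTw p M`, `θ₀ = dictT p M`).

* `shaEquiv : Nonempty (ker (lcLocTotal₂ T M') ≃+ (ker (lcLocTotal₁ T M) →+ ZMod p))`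
  (Poitou–Tate for `N = repZ M`, `PT.ptEquiv_zResR` with the unconditional inputs `ptInputsU`);
* `finite_shaLC₂ : Finite (ker (lcLocTotal₂ T M'))`;
* `sha_finrank : finrank (ker (lcLocTotal₁ T M)) = finrank (ker (lcLocTotal₂ T M'))`
  (literally `hsha'` of `CountDual.gw_le_dual`).
-/

set_option autoImplicit false
set_option linter.unusedSectionVars false
set_option linter.style.haveILetI false

open CategoryTheory ExtCitation

noncomputable section

namespace Fermat.Agent.TW.GWB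

open Fermat.Agent.CFT Fermat.Agent.CFT.PT Fermat.Agent.S55 HExt

local notation "Qb" => AlgebraicClosure ℚ
local notation "GQ" => (AlgebraicClosure ℚ ≃ₐ[ℚ] AlgebraicClosure ℚ)

attribute [local instance 2000] Rep.hV2
attribute [local instance 3000] finite_repZ

variable (p : ℕ) [hp : Fact p.Prime] (T : Finset Nat.Primes) (hpT : pPrime p ∈ T)
  (M M' : Rep (ZMod p) GQ) [FiniteDimensional (ZMod p) M]
  (hM : IsSmooth (globalLevel T) M) (hM' : IsSmooth (globalLevel T) M')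
  (θ₀ : repZ M' ⟶ (Rep.ihom (repZ M)).obj (muRep p)) (hθ₀ : Function.Bijective θ₀.hom)

theorem cxH2Equiv_mem_shaCx_iff (x : LC.H2 (globalLevel T) M') :
    cxH2Equiv M' hM' x ∈ shaCx T ((isSmooth_repZ_iff (globalLevel T) M').2 hM') 2 ↔
      x ∈ (LinearMap.ker (lcLocTotal₂ T M')).toAddSubgroup := by
  rw [mem_shaCx_iff, Submodule.mem_toAddSubgroup, LinearMap.mem_ker, funext_iff]
  refine forall_congr' fun v => ?_
  rw [resH_cxH2Equiv M' ((levelComap_global T).compat v) hM' x]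
  exact AddEquiv.map_eq_zero_iff _

theorem cxH1Equiv_mem_shaCx_iff (x : LC.H1 (globalLevel T) M) :
    cxH1Equiv M hM x ∈ shaCx T ((isSmooth_repZ_iff (globalLevel T) M).2 hM) 1 ↔
      x ∈ (LinearMap.ker (lcLocTotal₁ T M)).toAddSubgroup := by
  rw [mem_shaCx_iff, Submodule.mem_toAddSubgroup, LinearMap.mem_ker, funext_iff]
  refine forall_congr' fun v => ?_
  rw [resH_cxH1Equiv M ((levelComap_global T).compat v) hM x]
  exact AddEquiv.map_eq_zero_iff _

include hpT hM hM' hθ₀ in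
/-- **Poitou–Tate for the Tate–Shafarevich groups, level-cohomology form, generic dual pair**:
`Ш²_T(M') ≃ Hom(Ш¹_T(M), ℤ/p)`. -/
theorem shaEquiv (hp2 : p ≠ 2) :
    Nonempty (↥(LinearMap.ker (lcLocTotal₂ T M')).toAddSubgroup ≃+
      (↥(LinearMap.ker (lcLocTotal₁ T M)).toAddSubgroup →+ ZMod p)) := by
  have hN := (isSmooth_repZ_iff (globalLevel T) M).2 hM
  have hM₀ := (isSmooth_repZ_iff (globalLevel T) M').2 hM'
  obtain ⟨e⟩ := ptEquiv_zResR (ptInputsU T hp2 hpT) ⟨_, hpT⟩ (repZ M) hN (nsmul_repZ_eq_zero p M)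
  -- `Ш²(M') ≃ shaCx 2 ≃ ker jsLoc2`
  let e2 : ↥(LinearMap.ker (lcLocTotal₂ T M')).toAddSubgroup ≃+
      ↥(jsLoc2 T (zResR (repZ M) hN)).ker :=
    (addEquivSubgroups (cxH2Equiv M' hM') _ _ (cxH2Equiv_mem_shaCx_iff p T M' hM')).trans
      (shaCx₂EquivKer p T hpT (repZ M) hN (nsmul_repZ_eq_zero p M) hM₀ θ₀ hθ₀)
  -- `Ш¹(M) ≃ shaCx 1 ≃ ker jsLoc1`
  let e1 : ↥(LinearMap.ker (lcLocTotal₁ T M)).toAddSubgroup ≃+
      ↥(jsLoc1 T (zResR (repZ M) hN)).ker :=
    (addEquivSubgroups (cxH1Equiv M hM) _ _ (cxH1Equiv_mem_shaCx_iff p T M hM)).trans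
      (shaCx₁EquivKer T (repZ M) hN)
  exact ⟨(e2.trans e).trans (AddEquiv.addMonoidHomCongrLeft e1.symm)⟩

include hpT hM hM' hθ₀ in
/-- `Ш²_T(M')` is finite. -/
theorem finite_shaLC₂ (hp2 : p ≠ 2) : Finite ↥(LinearMap.ker (lcLocTotal₂ T M')) := by
  obtain ⟨e⟩ := shaEquiv p T hpT M M' hM hM' θ₀ hθ₀ hp2
  haveI : Finite M := Module.finite_of_finite (ZMod p)
  haveI := finite_H1_global T hp2 hpT M hM
  haveI : Finite ↥(LinearMap.ker (lcLocTotal₁ T M)).toAddSubgroup :=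
    inferInstanceAs (Finite ↥(LinearMap.ker (lcLocTotal₁ T M)))
  haveI : Finite (↥(LinearMap.ker (lcLocTotal₁ T M)).toAddSubgroup →+ ZMod p) :=
    Finite.of_injective _ DFunLike.coe_injective
  exact Finite.of_equiv _ e.symm.toEquiv

include hpT hM hM' hθ₀ in
/-- **`dim Ш¹_T(M) = dim Ш²_T(M')`** (`hsha'` of `CountDual.gw_le_dual`). -/
theorem sha_finrank (hp2 : p ≠ 2) :
    Module.finrank (ZMod p) ↥(LinearMap.ker (lcLocTotal₁ T M)) =
      Module.finrank (ZMod p) ↥(LinearMap.ker (lcLocTotal₂ T M')) := by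
  obtain ⟨e⟩ := shaEquiv p T hpT M M' hM hM' θ₀ hθ₀ hp2
  haveI : Finite M := Module.finite_of_finite (ZMod p)
  haveI := finite_H1_global T hp2 hpT M hM
  haveI : Finite ↥(LinearMap.ker (lcLocTotal₁ T M)) := inferInstance
  have hcard : Nat.card ↥(LinearMap.ker (lcLocTotal₂ T M')) =
      Nat.card ↥(LinearMap.ker (lcLocTotal₁ T M)) := by
    rw [← card_addDual_zmod (p := p) ↥(LinearMap.ker (lcLocTotal₁ T M))]
    exact Nat.card_congr e.toEquiv
  exact (finrank_eq_of_card_eq (p := p) hcard).2.2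

end Fermat.Agent.TW.GWB

end
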