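import Mathlib
import Fermat.Agent.S55.LCBridgeCompat

/-!
# PROGRAM G (S56), block GW-bridge: wrapper types for the local cohomology groups

Instance synthesis and unification for FAMILIES `v ↦ LC.H1 (levelOf (primeLocalToGlobal v)) (Res M)`
is fragile (the groups are quotients of submodules of function spaces, and the elaborator has to
compare several instance paths under a binder).  We therefore wrap the local groups in
non-reducible definitions `LocH1 T M v`, `LocH2 T M v` with declared instances, and restate the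
total localisation maps as `locW1 T M`, `locW2 T M` with values in `∀ v, LocH1 T M v` etc.
These are the carriers to be used when instantiating `CountDual.gw_le_dual`.
-/

set_option autoImplicit false

noncomputable section

namespace Fermat.Agent.TW.GWB

open Fermat.Agent.CFT Fermat.Agent.S55 ExtCitation

local notation "GQ" => (AlgebraicClosure ℚ ≃ₐ[ℚ] AlgebraicClosure ℚ)

variable {k : Type} [Field k] (T : Finset Nat.Primes) (M : Rep k GQ)

/-- `H¹(G_v, M)` in level cohomology (wrapper). -/
def LocH1 (v : ↥T) : Type :=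
  LC.H1 (levelOf (primeLocalToGlobal v.1)) (Rep.res (primeLocalToGlobal v.1) M)

/-- `H²(G_v, M)` in level cohomology (wrapper). -/
def LocH2 (v : ↥T) : Type :=
  LC.H2 (levelOf (primeLocalToGlobal v.1)) (Rep.res (primeLocalToGlobal v.1) M)

instance instAddCommGroupLocH1 (v : ↥T) : AddCommGroup (LocH1 T M v) :=
  inferInstanceAs (AddCommGroup
    (LC.H1 (levelOf (primeLocalToGlobal v.1)) (Rep.res (primeLocalToGlobal v.1) M)))

instance instModuleLocH1 (v : ↥T) : Module k (LocH1 T M v) :=
  inferInstanceAs (Module k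
    (LC.H1 (levelOf (primeLocalToGlobal v.1)) (Rep.res (primeLocalToGlobal v.1) M)))

instance instAddCommGroupLocH2 (v : ↥T) : AddCommGroup (LocH2 T M v) :=
  inferInstanceAs (AddCommGroup
    (LC.H2 (levelOf (primeLocalToGlobal v.1)) (Rep.res (primeLocalToGlobal v.1) M)))

instance instModuleLocH2 (v : ↥T) : Module k (LocH2 T M v) :=
  inferInstanceAs (Module k
    (LC.H2 (levelOf (primeLocalToGlobal v.1)) (Rep.res (primeLocalToGlobal v.1) M)))

/-- The identity `LC.H1 … ≃ LocH1 T M v`. -/
def toLocH1 (v : ↥T) :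
    LC.H1 (levelOf (primeLocalToGlobal v.1)) (Rep.res (primeLocalToGlobal v.1) M) ≃ₗ[k]
      LocH1 T M v :=
  LinearEquiv.refl k _

/-- The identity `LC.H2 … ≃ LocH2 T M v`. -/
def toLocH2 (v : ↥T) :
    LC.H2 (levelOf (primeLocalToGlobal v.1)) (Rep.res (primeLocalToGlobal v.1) M) ≃ₗ[k]
      LocH2 T M v :=
  LinearEquiv.refl k _

/-- Total localisation `H¹(G_T, M) → ∏_v H¹(G_v, M)` with values in the wrappers. -/
def locW1 : LC.H1 (globalLevel T) M →ₗ[k] ∀ v : ↥T, LocH1 T M v :=
  LinearMap.pi fun v =>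
    (toLocH1 T M v).toLinearMap.comp
      (lcResH1 M (levelCompat_globalLevel (primeLocalToGlobal v.1) T))

/-- Total localisation `H²(G_T, M) → ∏_v H²(G_v, M)` with values in the wrappers. -/
def locW2 : LC.H2 (globalLevel T) M →ₗ[k] ∀ v : ↥T, LocH2 T M v :=
  LinearMap.pi fun v =>
    (toLocH2 T M v).toLinearMap.comp
      (lcResH2 M (levelCompat_globalLevel (primeLocalToGlobal v.1) T))

theorem locW1_apply (x : LC.H1 (globalLevel T) M) (v : ↥T) :
    locW1 T M x v = toLocH1 T M v (lcLocTotal₁ T M x v) := rfl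

theorem locW2_apply (x : LC.H2 (globalLevel T) M) (v : ↥T) :
    locW2 T M x v = toLocH2 T M v (lcLocTotal₂ T M x v) := rfl

theorem ker_locW1 : LinearMap.ker (locW1 T M) = LinearMap.ker (lcLocTotal₁ T M) := by
  ext x
  rw [LinearMap.mem_ker, LinearMap.mem_ker, funext_iff, funext_iff]
  refine forall_congr' fun v => ?_
  rw [locW1_apply]
  exact LinearEquiv.map_eq_zero_iff _

theorem ker_locW2 : LinearMap.ker (locW2 T M) = LinearMap.ker (lcLocTotal₂ T M) := by
  ext x
  rw [LinearMap.mem_ker, LinearMap.mem_ker, funext_iff, funext_iff]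
  refine forall_congr' fun v => ?_
  rw [locW2_apply]
  exact LinearEquiv.map_eq_zero_iff _

theorem mem_range_locW1_iff (y : ∀ v : ↥T, LocH1 T M v) :
    y ∈ LinearMap.range (locW1 T M) ↔
      (fun v => (toLocH1 T M v).symm (y v)) ∈ LinearMap.range (lcLocTotal₁ T M) := by
  constructor
  · rintro ⟨x, rfl⟩
    exact ⟨x, funext fun v => by rw [locW1_apply, LinearEquiv.symm_apply_apply]⟩
  · rintro ⟨x, hx⟩
    refine ⟨x, funext fun v => ?_⟩
    rw [locW1_apply, hx, LinearEquiv.apply_symm_apply]

theorem mem_range_locW2_iff (y : ∀ v : ↥T, LocH2 T M v) :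
    y ∈ LinearMap.range (locW2 T M) ↔
      (fun v => (toLocH2 T M v).symm (y v)) ∈ LinearMap.range (lcLocTotal₂ T M) := by
  constructor
  · rintro ⟨x, rfl⟩
    exact ⟨x, funext fun v => by rw [locW2_apply, LinearEquiv.symm_apply_apply]⟩
  · rintro ⟨x, hx⟩
    refine ⟨x, funext fun v => ?_⟩
    rw [locW2_apply, hx, LinearEquiv.apply_symm_apply]

end Fermat.Agent.TW.GWB

end
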