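import Mathlib
import Fermat.Agent.TW.GWB.LocH2
import Fermat.Agent.TW.GWB.ShaEquiv
import Fermat.Agent.TW.GWB.Wrap

/-!
# PROGRAM G (S56), block GW-bridge: global `H²` and the end of the Poitou–Tate sequence in
level-cohomology language (node E7)

`p` odd, `p ∈ T`, `(M, M', θ₀)` a dual pair of finite `𝔽_p[G_ℚ]`-modules smooth for `globalLevel T`.

* `globH2Ext : H²(G_T, M') ≃+ Ext²(N, E_T)` (`N = repZ M`) and the localisation square
  `jsLoc2_globH2Ext`;
* `finite_H2_global`, `finiteDimensional_H2_global`: `LC.H2 (globalLevel T) M'` is finite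
  (`Ш²` is finite by `finite_shaLC₂`, the local `H²` by `finite_H2_local`);
* `end_hard`: **(B2), dimension form** `Σ_v dim H²(G_v, M') ≤ rank (loc² for M') + dim M^{G_ℚ}`
  (`hend'` of `CountDual.gw_le_dual`) from the exactness statement (E6) at the last local term,
  `ker (∏_v Ext²(N_v, ℚ̄_vˣ) → H⁰(G_ℚ, N)^∨) ⊆ im (Ext²(N, E_T))`, taken as a hypothesis in its
  literal hyper-Ext form.
-/

set_option autoImplicit false
set_option linter.unusedSectionVars false
set_option linter.style.haveILetI false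

open CategoryTheory ExtCitation

noncomputable section

namespace Fermat.Agent.TW.GWB

open Fermat.Agent.CFT Fermat.Agent.CFT.PT Fermat.Agent.S55 HExt LatticePair

local notation "Qb" => AlgebraicClosure ℚ
local notation "GQ" => (AlgebraicClosure ℚ ≃ₐ[ℚ] AlgebraicClosure ℚ)

attribute [local instance 2000] Rep.hV2
attribute [local instance 3000] finite_repZ

/-- **Counting at the end of an exact sequence**: if `ker δ ⊆ R` then `#P ≤ #R · #D`. -/
theorem card_le_of_ker_le {P D : Type*} [AddCommGroup P] [Finite P] [AddCommGroup D] [Finite D]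
    (δ : P →+ D) (R : AddSubgroup P) (h : ∀ y, δ y = 0 → y ∈ R) :
    Nat.card P ≤ Nat.card R * Nat.card D := by
  have h1 : Nat.card P = Nat.card (P ⧸ δ.ker) * Nat.card δ.ker :=
    AddSubgroup.card_eq_card_quotient_mul_card_addSubgroup δ.ker
  have h2 : Nat.card (P ⧸ δ.ker) ≤ Nat.card D :=
    (Nat.card_congr (QuotientAddGroup.quotientKerEquivRange δ).toEquiv).le.trans
      (Nat.card_le_card_of_injective _ Subtype.val_injective)
  have h3 : Nat.card δ.ker ≤ Nat.card R :=
    Nat.card_le_card_of_injective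
      (fun y : δ.ker => (⟨y.1, h y.1 (AddMonoidHom.mem_ker.1 y.2)⟩ : ↥R))
      (fun y y' hyy' => Subtype.ext (congrArg (fun z : ↥R => (z : P)) hyy'))
  rw [h1, mul_comm]
  exact Nat.mul_le_mul h3 h2

/-- A group with a homomorphism with finite kernel to a finite group is finite. -/
theorem finite_of_finite_ker {A B : Type*} [AddCommGroup A] [AddCommGroup B] (f : A →+ B)
    [Finite f.ker] [Finite B] : Finite A := by
  classical
  let s : B → A := fun b => if h : ∃ a, f a = b then h.choose else 0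
  have hs : ∀ a, f (s (f a)) = f a := fun a => by
    have h : ∃ a', f a' = f a := ⟨a, rfl⟩
    simp only [s, dif_pos h]
    exact h.choose_spec
  refine Finite.of_injective (fun a => ((f a, ⟨a - s (f a), by
    rw [AddMonoidHom.mem_ker, map_sub, hs, sub_self]⟩) : B × f.ker)) ?_
  intro a a' h
  have h1 : f a = f a' := congrArg Prod.fst h
  have h2 : a - s (f a) = a' - s (f a') := congrArg (fun x : B × f.ker => (x.2 : A)) h
  rw [h1] at h2
  exact sub_left_injective h2

variable (p : ℕ) [hp : Fact p.Prime] (T : Finset Nat.Primes) (hpT : pPrime p ∈ T)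
  (M M' : Rep (ZMod p) GQ) [FiniteDimensional (ZMod p) M]
  (hM : IsSmooth (globalLevel T) M) (hM' : IsSmooth (globalLevel T) M')
  (θ₀ : repZ M' ⟶ (Rep.ihom (repZ M)).obj (muRep p)) (hθ₀ : Function.Bijective θ₀.hom)

/-- `H²(G_T, M') ≃ Ext²(N, E_T)`, `N = repZ M`. -/
def globH2Ext :
    LC.H2 (globalLevel T) M' ≃+
      (zResR (repZ M) ((isSmooth_repZ_iff (globalLevel T) M).2 hM)).Ext
        (isSmooth_esRep (globalLevel T) Qb (↑T : Set Nat.Primes)) 2 :=
  (cxH2Equiv M' hM').trans
    (midIdentN p T hpT (repZ M) ((isSmooth_repZ_iff (globalLevel T) M).2 hM)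
      (nsmul_repZ_eq_zero p M) ((isSmooth_repZ_iff (globalLevel T) M').2 hM') θ₀ hθ₀ 2)

/-- The localisation square in degree `2`. -/
theorem jsLoc2_globH2Ext (x : LC.H2 (globalLevel T) M') (v : ↥T) :
    jsLoc2 T (zResR (repZ M) ((isSmooth_repZ_iff (globalLevel T) M).2 hM))
        (globH2Ext p T hpT M M' hM hM' θ₀ hθ₀ x) v =
      locH2Ext p T hpT M M' hM hM' θ₀ hθ₀ v (lcLocTotal₂ T M' x v) := by
  have h1 := jsLoc_midIdentN p T hpT (repZ M) ((isSmooth_repZ_iff (globalLevel T) M).2 hM)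
    (nsmul_repZ_eq_zero p M) ((isSmooth_repZ_iff (globalLevel T) M').2 hM') θ₀ hθ₀ 2
    (cxH2Equiv M' hM' x) v
  rw [resH_cxH2Equiv M' ((levelComap_global T).compat v) hM' x] at h1
  exact h1

include hpT hM hM' hθ₀ in
/-- **`H²(G_{ℚ,T}, M')` is finite** (level cohomology). -/
theorem finite_H2_global (hp2 : p ≠ 2) : Finite (LC.H2 (globalLevel T) M') := by
  haveI := finite_shaLC₂ p T hpT M M' hM hM' θ₀ hθ₀ hp2
  haveI : ∀ v : ↥T, Finite (LC.H2 (levelOf (primeLocalToGlobal v.1))
      (Rep.res (primeLocalToGlobal v.1) M')) :=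
    fun v => finite_H2_local p T hpT M M' hM hM' θ₀ hθ₀ v
  haveI : Finite (lcLocTotal₂ T M').toAddMonoidHom.ker :=
    Finite.of_injective
      (fun x : (lcLocTotal₂ T M').toAddMonoidHom.ker =>
        (⟨x.1, x.2⟩ : ↥(LinearMap.ker (lcLocTotal₂ T M'))))
      (fun x x' h => Subtype.ext (Subtype.ext_iff.1 h))
  exact finite_of_finite_ker
    (B := ∀ q : ↥T, LC.H2 (levelOf (primeLocalToGlobal q.1)) (Rep.res (primeLocalToGlobal q.1) M'))
    (lcLocTotal₂ T M').toAddMonoidHom

include hpT hM hM' hθ₀ in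
theorem finiteDimensional_H2_global (hp2 : p ≠ 2) :
    FiniteDimensional (ZMod p) (LC.H2 (globalLevel T) M') := by
  haveI := finite_H2_global p T hpT M M' hM hM' θ₀ hθ₀ hp2
  exact Module.Finite.of_finite

/-- `H⁰(G_ℚ, N)` (cohomology of the LC complex, `N = repZ M`) is the module of invariants
`M^{G_ℚ}`. -/
def globH0 :
    (LC.cx (zResR (repZ M) ((isSmooth_repZ_iff (globalLevel T) M).2 hM)).smooth).H 0 ≃+
      ↥(M.ρ.invariants) :=
  (addEquivOfIntLinearEquiv (LC.h0Equiv
    (zResR (repZ M) ((isSmooth_repZ_iff (globalLevel T) M).2 hM)).smooth)).trans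
    (invariantsRepZ M)

/-- The family of local identifications `∏_v H²(G_v, M') → ∏_v Ext²(N_v, ℚ̄_vˣ)` (on the wrapper
types `LocH2 T M' v`). -/
def locH2ExtPi :
    (∀ v : ↥T, LocH2 T M' v) →+
    ∀ v : ↥T, ((zResR (repZ M) ((isSmooth_repZ_iff (globalLevel T) M).2 hM)).res
      ((levelComap_global T).compat v)).Ext (isSmooth_primeUnitsRep v.1) 2 :=
  AddMonoidHom.mk' (fun y v => locH2Ext p T hpT M M' hM hM' θ₀ hθ₀ v
      ((toLocH2 T M' v).symm (y v)))
    (fun y y' => by
      funext v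
      simp only [Pi.add_apply, map_add])

theorem locH2ExtPi_apply (y : ∀ v : ↥T, LocH2 T M' v) (v : ↥T) :
    locH2ExtPi p T hpT M M' hM hM' θ₀ hθ₀ y v =
      locH2Ext p T hpT M M' hM hM' θ₀ hθ₀ v ((toLocH2 T M' v).symm (y v)) := rfl

/-- The last map of the Poitou–Tate sequence, `∏_v H²(G_v, M') → H⁰(G_ℚ, N)^∨`, `N = repZ M`
(on the wrapper types): `y ↦ (c ↦ Σ_v ⟨y_v, res_v c⟩_v)`. -/
def endDelta :
    (∀ v : ↥T, LocH2 T M' v) →+
      ((LC.cx (zResR (repZ M) ((isSmooth_repZ_iff (globalLevel T) M).2 hM)).smooth).H 0 →+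
        ZMod p) :=
  (mDualLoc₂ (levelComap_global T) p (fun q : ↥T => isSmooth_primeUnitsRep q.1)
      (zResR (repZ M) ((isSmooth_repZ_iff (globalLevel T) M).2 hM))
      (nsmul_repZ_eq_zero p M) (fun q : ↥T => invLoc p q.1)).comp
    (locH2ExtPi p T hpT M M' hM hM' θ₀ hθ₀)

theorem endDelta_apply (y : ∀ v : ↥T, LocH2 T M' v)
    (c : (LC.cx (zResR (repZ M) ((isSmooth_repZ_iff (globalLevel T) M).2 hM)).smooth).H 0) :
    endDelta p T hpT M M' hM hM' θ₀ hθ₀ y c =
      ∑ v : ↥T, ((zResR (repZ M) ((isSmooth_repZ_iff (globalLevel T) M).2 hM)).res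
          ((levelComap_global T).compat v)).dual2 p (isSmooth_primeUnitsRep v.1)
          (hpN_res (r := fun q : ↥T => primeLocalToGlobal q.1) p (nsmul_repZ_eq_zero p M) v)
          (invLoc p v.1)
          (locH2Ext p T hpT M M' hM hM' θ₀ hθ₀ v ((toLocH2 T M' v).symm (y v)))
          (LC.resH ((levelComap_global T).compat v)
            (zResR (repZ M) ((isSmooth_repZ_iff (globalLevel T) M).2 hM)).smooth 0 c) := rfl

include hpT hM hM' hθ₀ in
theorem finite_LocH2 (v : ↥T) : Finite (LocH2 T M' v) :=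
  finite_H2_local p T hpT M M' hM hM' θ₀ hθ₀ v

include hpT hM hM' hθ₀ in
/-- **(B2), the end of the Poitou–Tate sequence, dimension form in level cohomology**
(`hend'` of `CountDual.gw_le_dual`): `Σ_v dim H²(G_v, M') ≤ rank (loc² for M') + dim M^{G_ℚ}`,
from the exactness (E6) at the last local term in hyper-Ext form. -/
theorem end_hard
    (hE6 : ∀ x : ∀ q : ↥T, ((zResR (repZ M) ((isSmooth_repZ_iff (globalLevel T) M).2 hM)).res
        ((levelComap_global T).compat q)).Ext (isSmooth_primeUnitsRep q.1) 2,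
      mDualLoc₂ (levelComap_global T) p (fun q : ↥T => isSmooth_primeUnitsRep q.1)
          (zResR (repZ M) ((isSmooth_repZ_iff (globalLevel T) M).2 hM))
          (nsmul_repZ_eq_zero p M) (fun q : ↥T => invLoc p q.1) x = 0 →
        ∃ z, jsLoc2 T (zResR (repZ M) ((isSmooth_repZ_iff (globalLevel T) M).2 hM)) z = x) :
    ∑ v : ↥T, Module.finrank (ZMod p) (LocH2 T M' v) ≤
      Module.finrank (ZMod p) ↥(LinearMap.range (locW2 T M')) +
        Module.finrank (ZMod p) ↥(M.ρ.invariants) := by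
  haveI : Finite M := Module.finite_of_finite (ZMod p)
  haveI : ∀ v : ↥T, Finite (LocH2 T M' v) :=
    fun v => finite_LocH2 p T hpT M M' hM hM' θ₀ hθ₀ v
  haveI : ∀ v : ↥T, Module.Finite (ZMod p) (LocH2 T M' v) := fun v => Module.Finite.of_finite
  haveI : Finite ↥(M.ρ.invariants) :=
    Finite.of_injective (fun x => (x.1 : M)) Subtype.val_injective
  haveI : Finite (↥(M.ρ.invariants) →+ ZMod p) := Finite.of_injective _ DFunLike.coe_injective
  haveI : Finite ((LC.cx (zResR (repZ M)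
      ((isSmooth_repZ_iff (globalLevel T) M).2 hM)).smooth).H 0 →+ ZMod p) :=
    Finite.of_equiv (↥(M.ρ.invariants) →+ ZMod p)
      (AddEquiv.addMonoidHomCongrLeft (globH0 p T M hM)).symm.toEquiv
  have hd : Nat.card ((LC.cx (zResR (repZ M)
      ((isSmooth_repZ_iff (globalLevel T) M).2 hM)).smooth).H 0 →+ ZMod p) =
      p ^ Module.finrank (ZMod p) ↥(M.ρ.invariants) := by
    rw [Nat.card_congr (AddEquiv.addMonoidHomCongrLeft (globH0 p T M hM)).toEquiv,
      card_addDual_zmod (p := p) ↥(M.ρ.invariants),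
      Module.natCard_eq_pow_finrank (K := ZMod p) (V := ↥(M.ρ.invariants)), Nat.card_zmod]
  let δ := endDelta p T hpT M M' hM hM' θ₀ hθ₀
  have hker : ∀ y, δ y = 0 → y ∈ (LinearMap.range (locW2 T M')).toAddSubgroup := by
    intro y hy
    obtain ⟨z, hz⟩ := hE6 _ hy
    refine ⟨(globH2Ext p T hpT M M' hM hM' θ₀ hθ₀).symm z, funext fun v => ?_⟩
    apply (toLocH2 T M' v).symm.injective
    apply (locH2Ext p T hpT M M' hM hM' θ₀ hθ₀ v).injective
    rw [locW2_apply, LinearEquiv.symm_apply_apply,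
      ← jsLoc2_globH2Ext p T hpT M M' hM hM' θ₀ hθ₀, AddEquiv.apply_symm_apply]
    exact congrFun hz v
  have key := card_le_of_ker_le δ _ hker
  have hP : Nat.card (∀ v : ↥T, LocH2 T M' v) =
      p ^ ∑ v : ↥T, Module.finrank (ZMod p) (LocH2 T M' v) := by
    rw [Nat.card_pi, ← Finset.prod_pow_eq_pow_sum]
    refine Finset.prod_congr rfl fun v _ => ?_
    rw [Module.natCard_eq_pow_finrank (K := ZMod p), Nat.card_zmod]
  have hR : Nat.card ↥(LinearMap.range (locW2 T M')).toAddSubgroup =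
      p ^ Module.finrank (ZMod p) ↥(LinearMap.range (locW2 T M')) := by
    have : Nat.card ↥(LinearMap.range (locW2 T M')) =
        p ^ Module.finrank (ZMod p) ↥(LinearMap.range (locW2 T M')) := by
      rw [Module.natCard_eq_pow_finrank (K := ZMod p), Nat.card_zmod]
    exact this
  rw [hP, hR, hd, ← pow_add] at key
  exact (Nat.pow_le_pow_iff_right hp.out.one_lt).1 key

end Fermat.Agent.TW.GWB

end
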