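import Mathlib
import Fermat.Agent.TW.GWB.EndHard
import Fermat.Agent.CFT.PT.EndFinal

/-!
# PROGRAM G (S56), block GW-bridge: the end of the Poitou–Tate sequence, level-cohomology form,
unconditional (node E7 with helper24's (B2)-hard plugged in)

`p` odd, `p ∈ T`, `(M, M', θ₀)` a dual pair of finite `𝔽_p[G_ℚ]`-modules smooth for `globalLevel T`,
`δ = endDelta : ∏_v H²(G_v, M') → H⁰(G_ℚ, N)^∨`:

* `endDelta_locW2 : δ (loc² x) = 0` (the end is a complex; `PT.jsDualLoc₂_jsLoc2`);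
* `mem_range_locW2_of_endDelta_eq_zero` (exactness; `PT.end_js_loc2_final`);
* `endDelta_surjective` (local duality at one place + `H⁰(G_ℚ) ↪ H⁰(G_v)` + extension of
  characters);
* `end_le : Σ_v dim H²(G_v, M') ≤ rank loc² + dim M^{G_ℚ}` (`hend'` of `CountDual.gw_le_dual`);
* `end_eq : Σ_v dim H²(G_v, M') = rank loc² + dim M^{G_ℚ}`.
-/

set_option autoImplicit false
set_option linter.unusedSectionVars false
set_option linter.style.haveILetI false

open CategoryTheory ExtCitation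

noncomputable section

namespace Fermat.Agent.TW.GWB

open Fermat.Agent.CFT Fermat.Agent.CFT.PT Fermat.Agent.S55 HExt LatticePair

local notation "Qb" => AlgebraicClosure ℚ
local notation "GQ" => (AlgebraicClosure ℚ ≃ₐ[ℚ] AlgebraicClosure ℚ)

attribute [local instance 2000] Rep.hV2
attribute [local instance 3000] finite_repZ

/-- Restriction in degree `0` is the inclusion of invariants. -/
theorem h0Equiv_resH {k G H : Type} [CommRing k] [Group G] [Group H] {f : H →* G}
    {L : LevelStructure G} {LH : LevelStructure H} {A : Rep k G} (hf : LH.Compat L f)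
    (hA : IsSmooth L A) (c : (LC.cx hA).H 0) :
    ((LC.h0Equiv (hA.res hf) (LC.resH hf hA 0 c) : ↥(LC.H0 LH (Rep.res f A))) : A) =
      ((LC.h0Equiv hA c : ↥(LC.H0 L A)) : A) := by
  obtain ⟨a, rfl⟩ : ∃ a, LC.mkH0 hA a = c :=
    ⟨LC.h0Equiv hA c, (LC.h0Equiv hA).injective (LC.h0Equiv_mkH0 hA _)⟩
  rw [LC.h0Equiv_mkH0]
  rfl

/-- **Counting at the end of an exact sequence, reverse inequality**: if `R ⊆ ker δ` and `δ` is
surjective then `#R · #D ≤ #P`. -/
theorem card_ge_of_le_ker {P D : Type*} [AddCommGroup P] [Finite P] [AddCommGroup D]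
    (δ : P →+ D) (hδ : Function.Surjective δ) (R : AddSubgroup P) (h : ∀ y ∈ R, δ y = 0) :
    Nat.card R * Nat.card D ≤ Nat.card P := by
  have h1 : Nat.card P = Nat.card (P ⧸ δ.ker) * Nat.card δ.ker :=
    AddSubgroup.card_eq_card_quotient_mul_card_addSubgroup δ.ker
  have h2 : Nat.card (P ⧸ δ.ker) = Nat.card D :=
    Nat.card_congr (QuotientAddGroup.quotientKerEquivOfSurjective δ hδ).toEquiv
  have h3 : Nat.card R ≤ Nat.card δ.ker :=
    Nat.card_le_card_of_injective
      (fun y : R => (⟨y.1, AddMonoidHom.mem_ker.2 (h y.1 y.2)⟩ : ↥δ.ker))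
      (fun y y' hyy' => Subtype.ext (congrArg (fun z : ↥δ.ker => (z : P)) hyy'))
  rw [h1, h2, mul_comm]
  exact Nat.mul_le_mul le_rfl h3

variable (p : ℕ) [hp : Fact p.Prime] (T : Finset Nat.Primes) (hpT : pPrime p ∈ T)
  (M M' : Rep (ZMod p) GQ) [FiniteDimensional (ZMod p) M]
  (hM : IsSmooth (globalLevel T) M) (hM' : IsSmooth (globalLevel T) M')
  (θ₀ : repZ M' ⟶ (Rep.ihom (repZ M)).obj (muRep p)) (hθ₀ : Function.Bijective θ₀.hom)

/-- The local restriction `H⁰(G_ℚ, N) → H⁰(G_v, N)` is the inclusion `M^{G_ℚ} ⊆ (Res M)^{G_v}`. -/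
theorem locH0_resH (v : ↥T)
    (c : (LC.cx (zResR (repZ M) ((isSmooth_repZ_iff (globalLevel T) M).2 hM)).smooth).H 0) :
    ((locH0 p T M hM v (LC.resH ((levelComap_global T).compat v)
      (zResR (repZ M) ((isSmooth_repZ_iff (globalLevel T) M).2 hM)).smooth 0 c) :
        ↥((Rep.res (primeLocalToGlobal v.1) M).ρ.invariants)) : M) =
      ((globH0 p T M hM c : ↥(M.ρ.invariants)) : M) :=
  h0Equiv_resH ((levelComap_global T).compat v)
    (zResR (repZ M) ((isSmooth_repZ_iff (globalLevel T) M).2 hM)).smooth c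

include hpT in
/-- **The end of the sequence is a complex.** -/
theorem endDelta_locW2 (hp2 : p ≠ 2) (x : LC.H2 (globalLevel T) M') :
    endDelta p T hpT M M' hM hM' θ₀ hθ₀ (locW2 T M' x) = 0 := by
  have h := jsDualLoc₂_jsLoc2 T hp2 hpT (localTerms T) (repZ M)
    ((isSmooth_repZ_iff (globalLevel T) M).2 hM) (nsmul_repZ_eq_zero p M)
    (globH2Ext p T hpT M M' hM hM' θ₀ hθ₀ x)
  have h0 : endDelta p T hpT M M' hM hM' θ₀ hθ₀ (locW2 T M' x) =
      jsDualLoc₂ T p (zResR (repZ M) ((isSmooth_repZ_iff (globalLevel T) M).2 hM))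
        (nsmul_repZ_eq_zero p M) (fun q : ↥T => invLoc p q.1)
        (locH2ExtPi p T hpT M M' hM hM' θ₀ hθ₀ (locW2 T M' x)) := rfl
  have h1 : locH2ExtPi p T hpT M M' hM hM' θ₀ hθ₀ (locW2 T M' x) =
      jsLoc2 T (zResR (repZ M) ((isSmooth_repZ_iff (globalLevel T) M).2 hM))
        (globH2Ext p T hpT M M' hM hM' θ₀ hθ₀ x) := by
    funext v
    rw [locH2ExtPi_apply, locW2_apply, LinearEquiv.symm_apply_apply,
      jsLoc2_globH2Ext p T hpT M M' hM hM' θ₀ hθ₀ x v]
  rw [h0, h1]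
  exact h

include hpT in
/-- **Exactness at the last local term.** -/
theorem mem_range_locW2_of_endDelta_eq_zero (hp2 : p ≠ 2) (y : ∀ v : ↥T, LocH2 T M' v)
    (hy : endDelta p T hpT M M' hM hM' θ₀ hθ₀ y = 0) : y ∈ LinearMap.range (locW2 T M') := by
  obtain ⟨z, hz⟩ := (end_js_loc2_final T hp2 hpT (repZ M)
    ((isSmooth_repZ_iff (globalLevel T) M).2 hM) (nsmul_repZ_eq_zero p M)
    (locH2ExtPi p T hpT M M' hM hM' θ₀ hθ₀ y)).1 hy
  refine ⟨(globH2Ext p T hpT M M' hM hM' θ₀ hθ₀).symm z, funext fun v => ?_⟩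
  apply (toLocH2 T M' v).symm.injective
  apply (locH2Ext p T hpT M M' hM hM' θ₀ hθ₀ v).injective
  rw [locW2_apply, LinearEquiv.symm_apply_apply,
    ← jsLoc2_globH2Ext p T hpT M M' hM hM' θ₀ hθ₀, AddEquiv.apply_symm_apply]
  exact congrFun hz v

/-- The inclusion of invariants `M^{G_ℚ} ⊆ (Res M)^{G_v}`. -/
def invIncl (v : ↥T) :
    ↥(M.ρ.invariants) →ₗ[ZMod p] ↥((Rep.res (primeLocalToGlobal v.1) M).ρ.invariants) where
  toFun x := ⟨x.1, fun g => x.2 (primeLocalToGlobal v.1 g)⟩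
  map_add' _ _ := rfl
  map_smul' _ _ := rfl

theorem invIncl_injective (v : ↥T) : Function.Injective (invIncl p T M v) := fun _ _ h =>
  Subtype.ext (congrArg (fun z : ↥((Rep.res (primeLocalToGlobal v.1) M).ρ.invariants) =>
    (z : M)) h)

theorem locH0_resH_eq (v : ↥T)
    (c : (LC.cx (zResR (repZ M) ((isSmooth_repZ_iff (globalLevel T) M).2 hM)).smooth).H 0) :
    locH0 p T M hM v (LC.resH ((levelComap_global T).compat v)
      (zResR (repZ M) ((isSmooth_repZ_iff (globalLevel T) M).2 hM)).smooth 0 c) =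
      invIncl p T M v (globH0 p T M hM c) :=
  Subtype.ext (locH0_resH p T M hM v c)

include hpT in
/-- **The last map of the Poitou–Tate sequence is surjective.** -/
theorem endDelta_surjective :
    Function.Surjective (endDelta p T hpT M M' hM hM' θ₀ hθ₀) := by
  classical
  intro φ
  let v₀ : ↥T := ⟨pPrime p, hpT⟩
  obtain ⟨g, hg⟩ := LinearMap.exists_leftInverse_of_injective (invIncl p T M v₀)
    (LinearMap.ker_eq_bot.2 (invIncl_injective p T M v₀))
  let φ' : ↥(M.ρ.invariants) →ₗ[ZMod p] ZMod p :=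
    AddMonoidHom.toZModLinearMap p (φ.comp (globH0 p T M hM).symm.toAddMonoidHom)
  let ψ : (LC.cx ((zResR (repZ M) ((isSmooth_repZ_iff (globalLevel T) M).2 hM)).res
      ((levelComap_global T).compat v₀)).smooth).H 0 →+ ZMod p :=
    (φ'.comp g).toAddMonoidHom.comp (locH0 p T M hM v₀).toAddMonoidHom
  obtain ⟨e, he⟩ := (dual2_loc_bijective p T M hM v₀).2 ψ
  refine ⟨Pi.single v₀ (toLocH2 T M' v₀
    ((locH2Ext p T hpT M M' hM hM' θ₀ hθ₀ v₀).symm e)), AddMonoidHom.ext fun c => ?_⟩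
  rw [endDelta_apply, Finset.sum_eq_single v₀]
  · rw [Pi.single_eq_same, LinearEquiv.symm_apply_apply, AddEquiv.apply_symm_apply, he]
    show φ' (g (locH0 p T M hM v₀ _)) = φ c
    rw [locH0_resH_eq, ← LinearMap.comp_apply g, hg]
    show φ ((globH0 p T M hM).symm (globH0 p T M hM c)) = φ c
    rw [AddEquiv.symm_apply_apply]
  · intro v _ hv
    rw [Pi.single_eq_of_ne hv, map_zero, map_zero, map_zero]
    rfl
  · intro h
    exact absurd (Finset.mem_univ v₀) h

include hpT hM hM' hθ₀ in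
/-- **(B2), dimension form** (`hend'` of `CountDual.gw_le_dual`), unconditional:
`Σ_v dim H²(G_v, M') ≤ rank (loc² for M') + dim M^{G_ℚ}`. -/
theorem end_le (hp2 : p ≠ 2) :
    ∑ v : ↥T, Module.finrank (ZMod p) (LocH2 T M' v) ≤
      Module.finrank (ZMod p) ↥(LinearMap.range (locW2 T M')) +
        Module.finrank (ZMod p) ↥(M.ρ.invariants) :=
  end_hard p T hpT M M' hM hM' θ₀ hθ₀ fun x hx =>
    (end_js_loc2_final T hp2 hpT (repZ M) ((isSmooth_repZ_iff (globalLevel T) M).2 hM)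
      (nsmul_repZ_eq_zero p M) x).1 hx

include hpT hM hM' hθ₀ in
/-- **The end of the Poitou–Tate sequence, dimension form with equality**:
`Σ_v dim H²(G_v, M') = rank (loc² for M') + dim M^{G_ℚ}`. -/
theorem end_eq (hp2 : p ≠ 2) :
    ∑ v : ↥T, Module.finrank (ZMod p) (LocH2 T M' v) =
      Module.finrank (ZMod p) ↥(LinearMap.range (locW2 T M')) +
        Module.finrank (ZMod p) ↥(M.ρ.invariants) := by
  refine le_antisymm (end_le p T hpT M M' hM hM' θ₀ hθ₀ hp2) ?_
  haveI : Finite M := Module.finite_of_finite (ZMod p)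
  haveI : ∀ v : ↥T, Finite (LocH2 T M' v) :=
    fun v => finite_LocH2 p T hpT M M' hM hM' θ₀ hθ₀ v
  haveI : ∀ v : ↥T, Module.Finite (ZMod p) (LocH2 T M' v) := fun v => Module.Finite.of_finite
  haveI : Finite ↥(M.ρ.invariants) :=
    Finite.of_injective (fun x => (x.1 : M)) Subtype.val_injective
  haveI : Finite (↥(M.ρ.invariants) →+ ZMod p) := Finite.of_injective _ DFunLike.coe_injective
  have hd : Nat.card ((LC.cx (zResR (repZ M)
      ((isSmooth_repZ_iff (globalLevel T) M).2 hM)).smooth).H 0 →+ ZMod p) =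
      p ^ Module.finrank (ZMod p) ↥(M.ρ.invariants) := by
    rw [Nat.card_congr (AddEquiv.addMonoidHomCongrLeft (globH0 p T M hM)).toEquiv,
      card_addDual_zmod (p := p) ↥(M.ρ.invariants),
      Module.natCard_eq_pow_finrank (K := ZMod p) (V := ↥(M.ρ.invariants)), Nat.card_zmod]
  have key := card_ge_of_le_ker (endDelta p T hpT M M' hM hM' θ₀ hθ₀)
    (endDelta_surjective p T hpT M M' hM hM' θ₀ hθ₀)
    (LinearMap.range (locW2 T M')).toAddSubgroup (by
      rintro _ ⟨x, rfl⟩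
      exact endDelta_locW2 p T hpT M M' hM hM' θ₀ hθ₀ hp2 x)
  have hP : Nat.card (∀ v : ↥T, LocH2 T M' v) =
      p ^ ∑ v : ↥T, Module.finrank (ZMod p) (LocH2 T M' v) := by
    rw [Nat.card_pi, ← Finset.prod_pow_eq_pow_sum]
    refine Finset.prod_congr rfl fun v _ => ?_
    rw [Module.natCard_eq_pow_finrank (K := ZMod p), Nat.card_zmod]
  have hR : Nat.card ↥(LinearMap.range (locW2 T M')).toAddSubgroup =
      p ^ Module.finrank (ZMod p) ↥(LinearMap.range (locW2 T M')) := by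
    have : Nat.card ↥(LinearMap.range (locW2 T M')) =
        p ^ Module.finrank (ZMod p) ↥(LinearMap.range (locW2 T M')) := by
      rw [Module.natCard_eq_pow_finrank (K := ZMod p), Nat.card_zmod]
    exact this
  rw [hP, hR, hd, ← pow_add] at key
  exact (Nat.pow_le_pow_iff_right hp.out.one_lt).1 key

end Fermat.Agent.TW.GWB

end
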