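import Mathlib
import Fermat.Agent.TW.GWB.EndEq
import Fermat.Agent.TW.GWB.FinH1
import Fermat.Agent.TW.GW.CountDual

/-!
# PROGRAM G (S56), block GW-bridge: the LITERAL inputs of `CountDual.gw_le_dual` and its
instantiation

`p` odd, `p ∈ T`, `(M, M', θ₀)` a dual pair of finite `𝔽_p[G_ℚ]`-modules smooth for `globalLevel T`
(`θ₀ : repZ M' ⟶ Hom(repZ M, μ_p)` bijective; e.g. `M' = dualTw p M`, `θ₀ = dictT p M`).
Carriers: global `LC.H1 (globalLevel T) M`, `LC.H1 (globalLevel T) M'`, `LC.H2 (globalLevel T) M'`;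
local the WRAPPERS `LocH1 T M v`, `LocH1 T M' v`, `LocH2 T M' v` of `Wrap.lean`; `ι := ↥T`.

* `tateW v`, `tateW_flip_bijective` (`hB`), `middle_W` (`hex`), `sha_finrank_W` (`hsha'`),
  `end_le` (`hend'`, in `EndEq.lean`), `locd_W` (`hlocd`, with equality);
* `FiniteDimensional` instances (as theorems): `fd_H1_global`, `fd_H2_global`, `fd_LocH1`,
  `fd_LocH2`;
* **`gw_bridge`**: the Greenberg–Wiles inequality in level-cohomology language with the global
  Euler characteristic bound `hglob'` for `M'` as the ONLY hypothesis.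
-/

set_option autoImplicit false
set_option linter.unusedSectionVars false
set_option linter.style.haveILetI false

open CategoryTheory ExtCitation Module

noncomputable section

namespace Fermat.Agent.TW.GWB

open Fermat.Agent.CFT Fermat.Agent.CFT.PT Fermat.Agent.S55 HExt
open Fermat.Agent.TW.GW.LinAlg Fermat.Agent.TW.GW.Count Fermat.Agent.TW.GW.CountDual

local notation "Qb" => AlgebraicClosure ℚ
local notation "GQ" => (AlgebraicClosure ℚ ≃ₐ[ℚ] AlgebraicClosure ℚ)

attribute [local instance 2000] Rep.hV2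
attribute [local instance 3000] finite_repZ

variable (p : ℕ) [hp : Fact p.Prime] (T : Finset Nat.Primes) (hpT : pPrime p ∈ T)
  (M M' : Rep (ZMod p) GQ) [FiniteDimensional (ZMod p) M]
  (hM : IsSmooth (globalLevel T) M) (hM' : IsSmooth (globalLevel T) M')
  (θ₀ : repZ M' ⟶ (Rep.ihom (repZ M)).obj (muRep p)) (hθ₀ : Function.Bijective θ₀.hom)

/-- **The local Tate pairing** `H¹(G_v, M) × H¹(G_v, M') → 𝔽_p` on the wrapper types. -/
def tateW (v : ↥T) : LocH1 T M v →ₗ[ZMod p] LocH1 T M' v →ₗ[ZMod p] ZMod p :=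
  (tateB p T hpT M M' hM hM' θ₀ hθ₀ v).compl₁₂ (toLocH1 T M v).symm.toLinearMap
    (toLocH1 T M' v).symm.toLinearMap

theorem tateW_apply (v : ↥T) (a : LocH1 T M v) (b : LocH1 T M' v) :
    tateW p T hpT M M' hM hM' θ₀ hθ₀ v a b =
      tateB p T hpT M M' hM hM' θ₀ hθ₀ v ((toLocH1 T M v).symm a) ((toLocH1 T M' v).symm b) :=
  rfl

/-- **Local Tate duality** (`hB`). -/
theorem tateW_flip_bijective (v : ↥T) :
    Function.Bijective (tateW p T hpT M M' hM hM' θ₀ hθ₀ v).flip := by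
  have h := tateB_flip_bijective p T hpT M M' hM hM' θ₀ hθ₀ v
  constructor
  · intro b b' hbb'
    apply (toLocH1 T M' v).symm.injective
    apply h.1
    refine LinearMap.ext fun a => ?_
    have := LinearMap.congr_fun hbb' (toLocH1 T M v a)
    simpa only [LinearMap.flip_apply, tateW_apply, LinearEquiv.symm_apply_apply] using this
  · intro φ
    obtain ⟨b, hb⟩ := h.2 (φ.comp (toLocH1 T M v).toLinearMap)
    refine ⟨toLocH1 T M' v b, LinearMap.ext fun a => ?_⟩
    have := LinearMap.congr_fun hb ((toLocH1 T M v).symm a)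
    simpa only [LinearMap.flip_apply, tateW_apply, LinearEquiv.symm_apply_apply,
      LinearMap.comp_apply, LinearEquiv.coe_coe, LinearEquiv.apply_symm_apply] using this

include hpT in
/-- **Exactness of Poitou–Tate at the local `H¹` terms** (`hex`). -/
theorem middle_W (hp2 : p ≠ 2) (y : ∀ v : ↥T, LocH1 T M' v) :
    y ∈ LinearMap.range (locW1 T M') ↔
      ∀ x : LC.H1 (globalLevel T) M,
        ∑ v : ↥T, tateW p T hpT M M' hM hM' θ₀ hθ₀ v (locW1 T M x v) (y v) = 0 := by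
  rw [mem_range_locW1_iff, middle_lc p T hpT M M' hM hM' θ₀ hθ₀ hp2]
  refine forall_congr' fun x => ?_
  have : ∀ v : ↥T, tateB p T hpT M M' hM hM' θ₀ hθ₀ v (lcLocTotal₁ T M x v)
      ((toLocH1 T M' v).symm (y v)) =
      tateW p T hpT M M' hM hM' θ₀ hθ₀ v (locW1 T M x v) (y v) := fun v => by
    rw [tateW_apply, locW1_apply, LinearEquiv.symm_apply_apply]
  rw [Finset.sum_congr rfl fun v _ => this v]

include hpT hM hM' hθ₀ in
/-- **`dim Ш¹_T(M) = dim Ш²_T(M')`** (`hsha'`). -/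
theorem sha_finrank_W (hp2 : p ≠ 2) :
    finrank (ZMod p) ↥(LinearMap.ker (locW1 T M)) =
      finrank (ZMod p) ↥(LinearMap.ker (locW2 T M')) := by
  rw [ker_locW1, ker_locW2]
  exact sha_finrank p T hpT M M' hM hM' θ₀ hθ₀ hp2

include hpT hM hM' hθ₀ in
/-- **`dim H²(G_v, M') = dim (Res M)^{G_v}`** (`hlocd`, with equality). -/
theorem locd_W (v : ↥T) :
    finrank (ZMod p) (LocH2 T M' v) =
      finrank (ZMod p) ↥((Rep.res (primeLocalToGlobal v.1) M).ρ.invariants) :=
  locd p T hpT M M' hM hM' θ₀ hθ₀ v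

/-! ### Finite-dimensionality -/

theorem fd_LocH1 (A : Rep (ZMod p) GQ) [FiniteDimensional (ZMod p) A]
    (hA : IsSmooth (globalLevel T) A) (v : ↥T) : FiniteDimensional (ZMod p) (LocH1 T A v) :=
  finiteDimensional_H1_local T A hA v

include hpT hM hM' hθ₀ in
theorem fd_LocH2 (v : ↥T) : FiniteDimensional (ZMod p) (LocH2 T M' v) :=
  finiteDimensional_H2_local p T hpT M M' hM hM' θ₀ hθ₀ v

include hpT in
theorem fd_H1_global (hp2 : p ≠ 2) (A : Rep (ZMod p) GQ) [FiniteDimensional (ZMod p) A]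
    (hA : IsSmooth (globalLevel T) A) : FiniteDimensional (ZMod p) (LC.H1 (globalLevel T) A) :=
  finiteDimensional_H1_global T hp2 hpT A hA

include hpT hM hM' hθ₀ in
theorem fd_H2_global (hp2 : p ≠ 2) : FiniteDimensional (ZMod p) (LC.H2 (globalLevel T) M') :=
  finiteDimensional_H2_global p T hpT M M' hM hM' θ₀ hθ₀ hp2

/-! ### The Greenberg–Wiles inequality -/

include hpT hM hM' hθ₀ in
/-- **The Greenberg–Wiles inequality in level-cohomology language**, with the global Euler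
characteristic bound for `M'` (`hglob'`) as the only hypothesis:
`dim H¹_L(M) + h⁰(M') + Σ_v h⁰(G_v, M) + dim M ≤ dim H¹_{L^⊥}(M') + h⁰(M) + Σ_v dim L_v + h⁰(G_∞, M')`
(`h0s`, `dimM`, `hinf'` enter only through `hglob'`). -/
theorem gw_bridge (hp2 : p ≠ 2) [FiniteDimensional (ZMod p) M'] (h0s hinf' dimM : ℕ)
    (hglob' : finrank (ZMod p) (LC.H2 (globalLevel T) M') + h0s + dimM ≤
      finrank (ZMod p) (LC.H1 (globalLevel T) M') + hinf')
    (L : ∀ v : ↥T, Submodule (ZMod p) (LocH1 T M v)) :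
    finrank (ZMod p) ↥(selmer (locW1 T M) L) + h0s +
        ∑ v : ↥T, finrank (ZMod p) ↥((Rep.res (primeLocalToGlobal v.1) M).ρ.invariants) + dimM ≤
      finrank (ZMod p) ↥(selmer (locW1 T M')
          fun v => orthR (tateW p T hpT M M' hM hM' θ₀ hθ₀ v) (L v)) +
        finrank (ZMod p) ↥(M.ρ.invariants) + ∑ v : ↥T, finrank (ZMod p) ↥(L v) + hinf' := by
  classical
  haveI := fd_H1_global p T hpT hp2 M hM
  haveI := fd_H1_global p T hpT hp2 M' hM'
  haveI := fd_H2_global p T hpT M M' hM hM' θ₀ hθ₀ hp2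
  haveI : ∀ v : ↥T, FiniteDimensional (ZMod p) (LocH1 T M v) := fun v => fd_LocH1 p T M hM v
  haveI : ∀ v : ↥T, FiniteDimensional (ZMod p) (LocH2 T M' v) :=
    fun v => fd_LocH2 p T hpT M M' hM hM' θ₀ hθ₀ v
  exact gw_le_dual (locW1 T M) (locW1 T M') (locW2 T M')
    (fun v => tateW p T hpT M M' hM hM' θ₀ hθ₀ v)
    (fun v => tateW_flip_bijective p T hpT M M' hM hM' θ₀ hθ₀ v)
    (fun y => middle_W p T hpT M M' hM hM' θ₀ hθ₀ hp2 y)
    (sha_finrank_W p T hpT M M' hM hM' θ₀ hθ₀ hp2)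
    (finrank (ZMod p) ↥(M.ρ.invariants)) h0s hinf' dimM
    (fun v => finrank (ZMod p) ↥((Rep.res (primeLocalToGlobal v.1) M).ρ.invariants))
    (end_le p T hpT M M' hM hM' θ₀ hθ₀ hp2)
    (fun v => (locd_W p T hpT M M' hM hM' θ₀ hθ₀ v).ge)
    hglob' L

end Fermat.Agent.TW.GWB

end
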