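import Mathlib
import Fermat.Agent.TW.GWB.Out
import Fermat.Agent.TW.GWB.DictT

/-!
# PROGRAM G (S56), block GW-bridge: the Greenberg–Wiles inequality for `M' = M^∨(1)`

The specialisation of `gw_bridge` to the dual pair `(M, dualTw p M, dictT p M)`:

* `isSmooth_dualTw`: `M^∨(1)` is smooth for `globalLevel T` when `M` is (`p ∈ T`);
* `fd_dualTw`: `M^∨(1)` is finite-dimensional;
* `tateWD v`: the local Tate pairing `H¹(G_v, M) × H¹(G_v, M^∨(1)) → 𝔽_p`;
* **`gw_bridge_dualTw`**: the Greenberg–Wiles inequality with the global Euler characteristic bound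
  for `M^∨(1)` as the only hypothesis.
-/

set_option autoImplicit false
set_option linter.unusedSectionVars false
set_option linter.style.haveILetI false

open CategoryTheory ExtCitation Module

noncomputable section

namespace Fermat.Agent.TW.GWB

open Fermat.Agent.CFT Fermat.Agent.CFT.PT Fermat.Agent.S55 HExt
open Fermat.Agent.TW.GW.LinAlg Fermat.Agent.TW.GW.Count

local notation "Qb" => AlgebraicClosure ℚ
local notation "GQ" => (AlgebraicClosure ℚ ≃ₐ[ℚ] AlgebraicClosure ℚ)

variable (p : ℕ) [hp : Fact p.Prime] (T : Finset Nat.Primes) (hpT : pPrime p ∈ T)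
  (M : Rep (ZMod p) GQ) [FiniteDimensional (ZMod p) M] (hM : IsSmooth (globalLevel T) M)

include hpT hM in
/-- `M^∨(1)` is smooth for `globalLevel T`. -/
theorem isSmooth_dualTw : IsSmooth (globalLevel T) (dualTw p M) := by
  haveI : Finite M := Module.finite_of_finite (ZMod p)
  obtain ⟨N, hN, hfix⟩ := hM.exists_level_of_finite (Set.finite_univ (α := M))
  obtain ⟨N₀, hN₀, hle₀⟩ := isOpen_globalG0 p T hpT
  obtain ⟨N', hN', hle⟩ := (globalLevel T).directed hN hN₀
  intro f
  refine ⟨N', hN', fun g hg => ?_⟩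
  have hg1 : g ∈ N := (hle.trans inf_le_left) hg
  have hg0 : cycloChar p g = 1 := by
    have : g ∈ globalG0 p := hle₀ ((hle.trans inf_le_right) hg)
    rwa [globalG0_eq_ker_cycloChar, MonoidHom.mem_ker] at this
  refine LinearMap.ext fun m => ?_
  rw [Rep.dualTwist_ρ_apply, hg0, Units.val_one, one_smul, LinearMap.comp_apply,
    hfix m (Set.mem_univ m) g⁻¹ (N.inv_mem hg1)]

/-- `M^∨(1)` is finite-dimensional. -/
theorem fd_dualTw : FiniteDimensional (ZMod p) (dualTw p M) :=
  inferInstanceAs (FiniteDimensional (ZMod p) (Module.Dual (ZMod p) M))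

/-- **The local Tate pairing** `H¹(G_v, M) × H¹(G_v, M^∨(1)) → 𝔽_p`. -/
def tateWD (v : ↥T) :
    LocH1 T M v →ₗ[ZMod p] LocH1 T (dualTw p M) v →ₗ[ZMod p] ZMod p :=
  tateW p T hpT M (dualTw p M) hM (isSmooth_dualTw p T hpT M hM) (dictT p M)
    (dictT_hom_bijective p M) v

theorem tateWD_flip_bijective (v : ↥T) :
    Function.Bijective (tateWD p T hpT M hM v).flip :=
  tateW_flip_bijective p T hpT M (dualTw p M) hM (isSmooth_dualTw p T hpT M hM) (dictT p M)
    (dictT_hom_bijective p M) v

include hpT hM in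
/-- **The Greenberg–Wiles inequality for `M' = M^∨(1)`**, with the global Euler characteristic
bound for `M^∨(1)` as the only hypothesis. -/
theorem gw_bridge_dualTw (hp2 : p ≠ 2) (h0s hinf' dimM : ℕ)
    (hglob' : finrank (ZMod p) (LC.H2 (globalLevel T) (dualTw p M)) + h0s + dimM ≤
      finrank (ZMod p) (LC.H1 (globalLevel T) (dualTw p M)) + hinf')
    (L : ∀ v : ↥T, Submodule (ZMod p) (LocH1 T M v)) :
    finrank (ZMod p) ↥(selmer (locW1 T M) L) + h0s +
        ∑ v : ↥T, finrank (ZMod p) ↥((Rep.res (primeLocalToGlobal v.1) M).ρ.invariants) + dimM ≤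
      finrank (ZMod p) ↥(selmer (locW1 T (dualTw p M))
          fun v => orthR (tateWD p T hpT M hM v) (L v)) +
        finrank (ZMod p) ↥(M.ρ.invariants) + ∑ v : ↥T, finrank (ZMod p) ↥(L v) + hinf' := by
  haveI := fd_dualTw p M
  exact gw_bridge p T hpT M (dualTw p M) hM (isSmooth_dualTw p T hpT M hM) (dictT p M)
    (dictT_hom_bijective p M) hp2 h0s hinf' dimM hglob' L

end Fermat.Agent.TW.GWB

end
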