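import Mathlib
import Fermat.Agent.TW.GWB.Out
import Fermat.Agent.TW.Euler.Base.Contracts

/-!
# PROGRAM G (S56), GW-Euler node (H2F): the `H²`-formula

`h2FormulaOut : Fermat.Agent.TW.Euler.H2FormulaOut` (helper8's literal contract,
`TW/Euler/Base/Contracts.lean`): for `p` odd, `p ∈ T`, `M`, `M'` finite smooth `𝔽_p[G_ℚ]`-modules
with `M' ≅ M^∨(1)`:

  `h²(G_T, M) + h⁰(G_T, M') = dim Ш¹_T(M') + Σ_{ℓ ∈ T} h⁰(G_ℓ, M')`.

Proof: `h²(M) = dim Ш²_T(M) + rank loc²_M`; `dim Ш²_T(M) = dim Ш¹_T(M')` (`sha_finrank`, Poitou–Tate);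
`rank loc²_M + h⁰(M') = Σ_ℓ h²(G_ℓ, M)` (`end_eq`, the end of the Poitou–Tate sequence, (B2));
`h²(G_ℓ, M) = h⁰(G_ℓ, M')` (`locd`, local duality), all for the dual pair `(M', M)`.
-/

set_option autoImplicit false
set_option linter.unusedSectionVars false
set_option linter.style.haveILetI false

open CategoryTheory ExtCitation Module

noncomputable section

namespace Fermat.Agent.TW.GWB

open Fermat.Agent.CFT Fermat.Agent.CFT.PT Fermat.Agent.S55 HExt Fermat.Agent.TW.Euler

local notation "Qb" => AlgebraicClosure ℚ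
local notation "GQ" => (AlgebraicClosure ℚ ≃ₐ[ℚ] AlgebraicClosure ℚ)

attribute [local instance 2000] Rep.hV2
attribute [local instance 3000] finite_repZ

/-- Restriction of scalars to `ℤ` on morphisms. -/
def repZHom {k G : Type} [CommRing k] [Group G] {A B : Rep k G} (f : A ⟶ B) :
    repZ A ⟶ repZ B :=
  Rep.ofHom ⟨f.hom.toLinearMap.toAddMonoidHom.toIntLinearMap, fun g => by
    ext a
    exact Rep.hom_comm_apply f g a⟩

theorem repZHom_hom_apply {k G : Type} [CommRing k] [Group G] {A B : Rep k G} (f : A ⟶ B)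
    (a : A) : (repZHom f).hom (show repZ A from a) = f.hom a := rfl

variable {p : ℕ} [hp : Fact p.Prime] (M M' : Rep (ZMod p) GQ) [FiniteDimensional (ZMod p) M]

/-- The dual pair `(M', M)` attached to an isomorphism `M' ≅ M^∨(1)`:
`θ₀ : repZ M ⟶ Hom(repZ M', μ_p)`, `m ↦ (m' ↦ ζ^(e(m')(m)))`. -/
def thetaOfIso (e : M' ≅ M.dualTwist (cycloChar p)) :
    repZ M ⟶ (Rep.ihom (repZ M')).obj (muRep p) :=
  (dualTwistIso p M).hom ≫ Cup.precomp (repZHom e.hom) (muRep p)

theorem thetaOfIso_bijective (e : M' ≅ M.dualTwist (cycloChar p)) :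
    Function.Bijective (thetaOfIso M M' e).hom := by
  have h1 : Function.Bijective (dualTwistIso p M).hom.hom :=
    ConcreteCategory.bijective_of_isIso (dualTwistIso p M).hom
  have he : Function.Bijective e.hom.hom := ConcreteCategory.bijective_of_isIso e.hom
  have h2 : Function.Bijective (Cup.precomp (repZHom e.hom) (muRep p)).hom := by
    constructor
    · intro f f' hff'
      refine LinearMap.ext fun x => ?_
      obtain ⟨y, rfl⟩ := he.2 x
      exact LinearMap.congr_fun hff' y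
    · intro f
      let f' : repZ M' →ₗ[ℤ] muRep p := f
      let einv : repZ (dualTw p M) →ₗ[ℤ] repZ M' :=
        e.inv.hom.toLinearMap.toAddMonoidHom.toIntLinearMap
      refine ⟨f' ∘ₗ einv, LinearMap.ext fun x => ?_⟩
      show f' (e.inv.hom (e.hom.hom x)) = f' x
      congr 1
      exact congrArg (fun φ : M' ⟶ M' => φ.hom x) e.hom_inv_id
  exact h2.comp h1

/-- **(H2F) the `H²`-formula** (helper8's literal contract). -/
theorem h2FormulaOut : H2FormulaOut := by
  intro p _ hp2 T hpT M M' _ _ hM hM' ⟨e⟩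
  classical
  have hθ := thetaOfIso_bijective M M' e
  -- the dual pair is `(M', M)`: `H⁰`, `Ш¹` of `M'`, `H²` of `M`
  have h1 := sha_finrank_W p T hpT M' M hM' hM (thetaOfIso M M' e) hθ hp2
  have h2 := end_eq p T hpT M' M hM' hM (thetaOfIso M M' e) hθ hp2
  have h3 : ∀ v : ↥T, finrank (ZMod p) (LocH2 T M v) = h0Loc v.1 M' := fun v =>
    locd_W p T hpT M' M hM' hM (thetaOfIso M M' e) hθ v
  haveI := fd_H2_global p T hpT M' M hM' hM (thetaOfIso M M' e) hθ hp2
  have h4 := LinearMap.finrank_range_add_finrank_ker (locW2 T M)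
  have h5 : hG hM 2 = finrank (ZMod p) (LC.H2 (globalLevel T) M) :=
    (LC.h2Equiv hM).finrank_eq
  have h6 : hG hM' 0 = finrank (ZMod p) ↥(M'.ρ.invariants) := (LC.h0Equiv hM').finrank_eq
  have h7 : finrank (ZMod p) ↥(shaLC₁ T M') = finrank (ZMod p) ↥(LinearMap.ker (locW1 T M')) := by
    rw [ker_locW1]
    rfl
  have h8 : ∑ ℓ ∈ T, h0Loc ℓ M' = ∑ v : ↥T, finrank (ZMod p) (LocH2 T M v) := by
    rw [← Finset.sum_coe_sort T (fun ℓ => h0Loc ℓ M')]
    exact Finset.sum_congr rfl fun v _ => (h3 v).symm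
  rw [h5, h6, h7, h8, h2, h1]
  omega

end Fermat.Agent.TW.GWB

end
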