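import Mathlib
import Fermat.Agent.TW.GWB.OutDual

/-!
# PROGRAM G (S56), block GW-bridge: small consumer lemmas on Selmer groups

* `orthR_top_eq_bot`: the right orthogonal of `⊤` for a pairing with injective flip is `⊥`;
* `mem_selmer_locW1_iff`: membership in `selmer (locW1 T M) L` in terms of `lcResH1`;
* `lcResH1_eq_zero_of_mem_dualSelmer`: a class of the dual Selmer group is locally trivial at
  every place `v` where the condition `L v` is everything (the TW places).
-/

set_option autoImplicit false
set_option linter.unusedSectionVars false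

open CategoryTheory ExtCitation Module

noncomputable section

namespace Fermat.Agent.TW.GWB

open Fermat.Agent.CFT Fermat.Agent.CFT.PT Fermat.Agent.S55
open Fermat.Agent.TW.GW.LinAlg Fermat.Agent.TW.GW.Count

local notation "GQ" => (AlgebraicClosure ℚ ≃ₐ[ℚ] AlgebraicClosure ℚ)

/-- The right orthogonal of everything is zero (pairing with injective flip). -/
theorem orthR_top_eq_bot {k : Type*} [Field k] {P P' : Type*} [AddCommGroup P] [Module k P]
    [AddCommGroup P'] [Module k P'] (B : P →ₗ[k] P' →ₗ[k] k)
    (hB : Function.Injective B.flip) : orthR B ⊤ = ⊥ := by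
  rw [eq_bot_iff]
  intro y hy
  rw [mem_orthR_iff] at hy
  rw [Submodule.mem_bot]
  apply hB
  refine LinearMap.ext fun x => ?_
  rw [LinearMap.flip_apply, hy x Submodule.mem_top, map_zero, LinearMap.zero_apply]

variable {k : Type} [Field k] (T : Finset Nat.Primes) (M : Rep k GQ)

/-- Membership in the Selmer group, in terms of the restriction maps of level cohomology. -/
theorem mem_selmer_locW1_iff (L : ∀ v : ↥T, Submodule k (LocH1 T M v))
    (x : LC.H1 (globalLevel T) M) :
    x ∈ selmer (locW1 T M) L ↔
      ∀ v : ↥T, toLocH1 T M v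
        (lcResH1 M (levelCompat_globalLevel (primeLocalToGlobal v.1) T) x) ∈ L v := by
  rw [mem_selmer_iff]
  rfl

variable (p : ℕ) [hp : Fact p.Prime] (T : Finset Nat.Primes) (hpT : pPrime p ∈ T)
  (M : Rep (ZMod p) GQ) [FiniteDimensional (ZMod p) M] (hM : IsSmooth (globalLevel T) M)

/-- **A class of the dual Selmer group is locally trivial wherever `L v = ⊤`.** -/
theorem lcResH1_eq_zero_of_mem_dualSelmer (L : ∀ v : ↥T, Submodule (ZMod p) (LocH1 T M v))
    (v : ↥T) (hv : L v = ⊤) (x : LC.H1 (globalLevel T) (dualTw p M))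
    (hx : x ∈ selmer (locW1 T (dualTw p M)) fun v => orthR (tateWD p T hpT M hM v) (L v)) :
    lcResH1 (dualTw p M) (levelCompat_globalLevel (primeLocalToGlobal v.1) T) x = 0 := by
  have h := (mem_selmer_locW1_iff T (dualTw p M) _ x).1 hx v
  rw [hv, orthR_top_eq_bot _ (tateWD_flip_bijective p T hpT M hM v).1, Submodule.mem_bot] at h
  exact (LinearEquiv.map_eq_zero_iff _).1 h

end Fermat.Agent.TW.GWB

end
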