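import Mathlib
import Fermat.Agent.TW.GWB.OutDual
import Fermat.Agent.TW.Euler.Base.Contracts

/-!
# PROGRAM G (S56), block GW: the Greenberg–Wiles inequality from Tate's global Euler
characteristic formula

`gw_of_eulerGlobOut`: for `p` odd, `p ∈ T`, `M` a finite `𝔽_p[G_ℚ]`-module smooth for
`globalLevel T`, `M* = dualTw p M = M^∨(1)`, and any family of local conditions
`L v ≤ H¹(G_v, M)`, `v ∈ T`:

  `dim H¹_L(M) + h⁰(M*) + Σ_{v ∈ T} h⁰(G_v, M) + h⁰(G_∞, M) ≤ dim H¹_{L^⊥}(M*) + h⁰(M) + Σ_{v ∈ T} dim L_v`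

from helper8's contracts `Euler.EulerGlobOut` (Tate's global Euler characteristic formula) and
`Euler.ArchOut` (`hInf M + hInf M* = dim M`).  This is the inequality `GWLocNumbers.gw` of
`TW/Contracts.lean` (with `L_∞ = 0`).
-/

set_option autoImplicit false
set_option linter.unusedSectionVars false
set_option linter.style.haveILetI false

open CategoryTheory ExtCitation Module

noncomputable section

namespace Fermat.Agent.TW.GWB

open Fermat.Agent.CFT Fermat.Agent.CFT.PT Fermat.Agent.S55 HExt Fermat.Agent.TW.Euler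
open Fermat.Agent.TW.GW.LinAlg Fermat.Agent.TW.GW.Count

local notation "Qb" => AlgebraicClosure ℚ
local notation "GQ" => (AlgebraicClosure ℚ ≃ₐ[ℚ] AlgebraicClosure ℚ)

variable (p : ℕ) [hp : Fact p.Prime] (T : Finset Nat.Primes) (hpT : pPrime p ∈ T)
  (M : Rep (ZMod p) GQ) [FiniteDimensional (ZMod p) M] (hM : IsSmooth (globalLevel T) M)

include hpT hM in
/-- **The Greenberg–Wiles inequality** from Tate's global Euler characteristic formula. -/
theorem gw_of_eulerGlobOut (hE : EulerGlobOut) (hA : ArchOut) (hp2 : p ≠ 2)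
    (L : ∀ v : ↥T, Submodule (ZMod p) (LocH1 T M v)) :
    finrank (ZMod p) ↥(selmer (locW1 T M) L) +
        finrank (ZMod p) ↥((dualTw p M).ρ.invariants) +
        ∑ v : ↥T, finrank (ZMod p) ↥((Rep.res (primeLocalToGlobal v.1) M).ρ.invariants) +
        hInf M ≤
      finrank (ZMod p) ↥(selmer (locW1 T (dualTw p M))
          fun v => orthR (tateWD p T hpT M hM v) (L v)) +
        finrank (ZMod p) ↥(M.ρ.invariants) + ∑ v : ↥T, finrank (ZMod p) ↥(L v) := by
  haveI := fd_dualTw p M
  have hM' := isSmooth_dualTw p T hpT M hM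
  obtain ⟨-, -, hdef⟩ := hE p hp2 T hpT (dualTw p M) hM'
  have harch := hA p hp2 M (dualTw p M) ⟨Iso.refl _⟩
  have h0 : hG hM' 0 = finrank (ZMod p) ↥((dualTw p M).ρ.invariants) :=
    (LC.h0Equiv hM').finrank_eq
  have h1 : hG hM' 1 = finrank (ZMod p) (LC.H1 (globalLevel T) (dualTw p M)) :=
    (LC.h1Equiv hM').finrank_eq
  have h2 : hG hM' 2 = finrank (ZMod p) (LC.H2 (globalLevel T) (dualTw p M)) :=
    (LC.h2Equiv hM').finrank_eq
  have hdim : finrank (ZMod p) (dualTw p M) = finrank (ZMod p) M :=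
    Subspace.dual_finrank_eq
  unfold eulerDefect at hdef
  rw [h0, h1, h2, hdim] at hdef
  have hglob' : finrank (ZMod p) (LC.H2 (globalLevel T) (dualTw p M)) +
      finrank (ZMod p) ↥((dualTw p M).ρ.invariants) + finrank (ZMod p) M ≤
      finrank (ZMod p) (LC.H1 (globalLevel T) (dualTw p M)) + hInf (dualTw p M) := by
    omega
  have key := gw_bridge_dualTw p T hpT M hM hp2
    (finrank (ZMod p) ↥((dualTw p M).ρ.invariants)) (hInf (dualTw p M)) (finrank (ZMod p) M)
    hglob' L
  omega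

end Fermat.Agent.TW.GWB

end
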