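import Fermat.Agent.S55.CycloUnram
import Fermat.Agent.S55.TrivField

/-!
# PROGRAM G (S56), block GW-bridge, node ARITH (part 1): `ℚ(ζ_{p^m})` is unramified outside `p`

* `apply_eq_of_mem_inertia_of_pow_prime_pow_eq_one`: inertia groups above `ℓ ≠ p` fix all
  `p`-power roots of unity;
* `isUnramifiedOutside_adjoin_of_pow_prime_pow_eq_one`: `ℚ(ζ)`, `ζ ^ p ^ m = 1`, is unramified
  outside `{p}` (hence outside every `S ∋ p`).
-/

set_option autoImplicit false
set_option linter.style.haveILetI false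

open CategoryTheory Module groupCohomology ExtCitation
open scoped Pointwise
open Fermat.Agent.S54.FrobExists Fermat.Agent.S55

namespace Fermat.Agent.TW.GWB

local notation "Qb" => AlgebraicClosure ℚ
local notation "GQ" => (AlgebraicClosure ℚ ≃ₐ[ℚ] AlgebraicClosure ℚ)

variable (p : ℕ) [hp : Fact p.Prime]

/-- Inertia groups above primes `ℓ ≠ p` fix every `p`-power root of unity. -/
theorem apply_eq_of_mem_inertia_of_pow_prime_pow_eq_one {ℓ : ℕ} (hℓ : ℓ.Prime) (hℓp : ℓ ≠ p)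
    (A : ValuationSubring Qb) (hA : A.LiesOverPrime ℓ) {σ : GQ}
    (hσ : σ ∈ A.inertiaSubgroupIn ℚ) (m : ℕ) {ζ : Qb} (hζ : ζ ^ p ^ m = 1) : σ ζ = ζ := by
  by_contra hne
  have hp' : p.Prime := hp.out
  have hpm : 0 < p ^ m := pow_pos hp'.pos m
  have hζ0 : ζ ≠ 0 := by
    rintro rfl
    rw [zero_pow hpm.ne'] at hζ
    exact zero_ne_one hζ
  have hint : ∀ x : Qb, x ^ p ^ m = 1 → IsIntegral ℤ x := fun x hx =>
    IsIntegral.of_pow hpm (by rw [hx]; exact isIntegral_one)
  have hζA : ζ ∈ A := integral_mem_valuationSubring A (hint ζ hζ)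
  have hζinvA : ζ⁻¹ ∈ A := by
    refine integral_mem_valuationSubring A (hint ζ⁻¹ ?_)
    rw [inv_pow, hζ, inv_one]
  have hvζ : A.valuation ζ = 1 := by
    have h1 : A.valuation ζ ≤ 1 := (A.valuation_le_one_iff ζ).2 hζA
    have h2 : A.valuation ζ⁻¹ ≤ 1 := (A.valuation_le_one_iff ζ⁻¹).2 hζinvA
    rw [map_inv₀] at h2
    have h3 : 0 < A.valuation ζ := zero_lt_iff.mpr ((Valuation.ne_zero_iff _).mpr hζ0)
    exact le_antisymm h1 ((inv_le_one₀ h3).1 h2)
  have hlt : A.valuation (σ ζ - ζ) < 1 :=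
    ((Fermat.Agent.S14.mem_inertiaSubgroupIn_iff A σ).1 hσ).2 ζ hζA
  set η : Qb := σ ζ * ζ⁻¹ with hη
  have hηp : η ^ p ^ m = 1 := by
    rw [hη, mul_pow, ← map_pow, hζ, map_one, inv_pow, hζ, inv_one, mul_one]
  have hη1 : η ≠ 1 := by
    intro h
    apply hne
    have : σ ζ * ζ⁻¹ * ζ = 1 * ζ := by rw [← hη, h]
    rwa [inv_mul_cancel_right₀ hζ0, one_mul] at this
  -- the order of `η` is `p ^ j`, `j ≥ 1`
  have hdvd : orderOf η ∣ p ^ m := orderOf_dvd_of_pow_eq_one hηp
  obtain ⟨j, -, hj⟩ := (Nat.dvd_prime_pow hp').1 hdvd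
  have hj0 : j ≠ 0 := by
    rintro rfl
    rw [pow_zero] at hj
    exact hη1 (orderOf_eq_one_iff.1 hj)
  have hprim : IsPrimitiveRoot η (p ^ j) := by
    rw [← hj]
    exact IsPrimitiveRoot.orderOf η
  have h1lt : 1 < p ^ j := Nat.one_lt_pow hj0 hp'.one_lt
  obtain ⟨z, hz, hpz⟩ := IsPrimitiveRoot.self_sub_one_pow_dvd_order (k := 1) h1lt hprim
  have hzA : z ∈ A := by
    refine integral_mem_valuationSubring A ?_
    have hηint : IsIntegral ℤ η := hint η hηp
    exact IsIntegral.of_mem_of_fg _ (hηint.fg_adjoin_singleton) z hz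
  have hvη : A.valuation (η - 1) < 1 := by
    have : η - 1 = (σ ζ - ζ) * ζ⁻¹ := by
      rw [hη, sub_mul, mul_inv_cancel₀ hζ0]
    rw [this, map_mul, map_inv₀, hvζ, inv_one, mul_one]
    exact hlt
  have hvpj : A.valuation ((p ^ j : ℕ) : Qb) < 1 := by
    rw [hpz, pow_one, map_mul]
    calc A.valuation z * A.valuation (η - 1) ≤ 1 * A.valuation (η - 1) :=
          mul_le_mul_left ((A.valuation_le_one_iff z).2 hzA) _
      _ = A.valuation (η - 1) := one_mul _
      _ < 1 := hvη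
  have hvp : A.valuation (p : Qb) < 1 := by
    by_contra hge
    push Not at hge
    have : 1 ≤ A.valuation ((p ^ j : ℕ) : Qb) := by
      rw [Nat.cast_pow, map_pow]
      exact one_le_pow₀ hge
    exact absurd hvpj (not_lt.2 this)
  have hvℓ : A.valuation (ℓ : Qb) < 1 := (A.mem_nonunits_iff).mp hA
  have hcop : Nat.Coprime p ℓ := (Nat.coprime_primes hp' hℓ).2 (Ne.symm hℓp)
  have hbez : (1 : Qb) = (Nat.gcdA p ℓ : Qb) * (p : Qb) + (Nat.gcdB p ℓ : Qb) * (ℓ : Qb) := by
    have := Nat.gcd_eq_gcd_ab p ℓ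
    rw [hcop] at this
    have h2 : ((1 : ℕ) : ℤ) = (p : ℤ) * Nat.gcdA p ℓ + (ℓ : ℤ) * Nat.gcdB p ℓ := this
    have h3 := congrArg (Int.cast : ℤ → Qb) h2
    push_cast at h3
    rw [h3]; ring
  have hint' : ∀ n : ℤ, A.valuation (n : Qb) ≤ 1 := fun n =>
    (A.valuation_le_one_iff _).2 (intCast_mem_valuationSubring A n)
  have h1 : A.valuation (1 : Qb) < 1 := by
    rw [hbez]
    refine Valuation.map_add_lt _ ?_ ?_
    · rw [map_mul]
      calc _ ≤ 1 * A.valuation (p : Qb) := mul_le_mul_left (hint' _) _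
        _ = _ := one_mul _
        _ < 1 := hvp
    · rw [map_mul]
      calc _ ≤ 1 * A.valuation (ℓ : Qb) := mul_le_mul_left (hint' _) _
        _ = _ := one_mul _
        _ < 1 := hvℓ
  rw [map_one] at h1
  exact lt_irrefl _ h1

/-- `ℚ(ζ)` for a `p`-power root of unity `ζ` is unramified outside `p`. -/
theorem isUnramifiedOutside_adjoin_of_pow_prime_pow_eq_one (m : ℕ) {ζ : Qb}
    (hζ : ζ ^ p ^ m = 1) :
    (IntermediateField.adjoin ℚ {ζ}).IsUnramifiedOutside {pPrime p} := by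
  have hp' : p.Prime := hp.out
  have hpm : 0 < p ^ m := pow_pos hp'.pos m
  refine ⟨?_, fun q hq A hA σ hσ => ?_⟩
  · have hint : IsIntegral ℤ ζ := IsIntegral.of_pow hpm (by rw [hζ]; exact isIntegral_one)
    exact IntermediateField.adjoin.finiteDimensional (hint.tower_top (R := ℤ))
  · have hqp : (q : ℕ) ≠ p := by
      intro h
      apply hq
      rw [Finset.mem_singleton]
      exact Subtype.ext h
    have h2 : σ ζ = ζ :=
      apply_eq_of_mem_inertia_of_pow_prime_pow_eq_one p q.2 hqp A hA hσ m hζ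
    rw [IntermediateField.mem_fixingSubgroup_iff]
    intro x hx
    induction hx using IntermediateField.adjoin_induction with
    | mem y hy =>
      have : y = ζ := hy
      rw [this, h2]
    | algebraMap r => exact σ.commutes r
    | add y z _ _ hy hz => rw [map_add, hy, hz]
    | inv y _ hy => rw [map_inv₀, hy]
    | mul y z _ _ hy hz => rw [map_mul, hy, hz]

end Fermat.Agent.TW.GWB
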